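import Fermat.Agent.S15.Red.Top

/-!
# S15 / RED: the Atkin-Lehner dual of a point of `X₀(p)`

`exists_dual`: an involution `D` of the places of `FN p` which swaps `j` and `j_p`, commutes with `G_ℚ`,
and swaps the two cusps; `NearInf` and `NearZero` are exchanged.
-/

set_option autoImplicit false
set_option linter.unusedSectionVars false

noncomputable section

namespace Fermat.Agent.S15.Red

open AlgebraicCurve ModularCurve Fermat.Agent.Lib.RR Fermat.Agent.GAL Fermat.Agent.GAL.RED
  Fermat.Agent.GAL.Hecke Fermat.Agent.GAL.Igusa Fermat.Agent.S24 Fermat.Agent.S19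
  Fermat.Agent.S19.Weil Fermat.Agent.S37 Fermat.Agent.S17.Unr

variable {p : ℕ} [NeZero p]

/-- a semilinear automorphism of `FN p`, `p` prime, is determined by its action on `Kbar`, `j`, `j_p`. -/
theorem semilinearAut_ext (hp : p.Prime) {g h : SemilinearAut Kbar (FN p)}
    (hb : SemilinearAut.baseAut g = SemilinearAut.baseAut h) (hj : g • jF p = h • jF p) (hjp : g • jp p = h • jp p) : g = h := by
  have key : (SemilinearAut.toRingAut g : FN p →+* FN p) = (SemilinearAut.toRingAut h : FN p →+* FN p) := by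
    apply FNAdjoin.ringHom_ext
    · intro c
      show SemilinearAut.toRingAut g _ = SemilinearAut.toRingAut h _
      rw [SemilinearAut.commutes, SemilinearAut.commutes, hb]
    · intro d _ hd
      rcases (Nat.dvd_prime hp).1 hd with rfl | rfl
      · rw [FNAdjoin.jd_one]
        exact hj
      · exact hjp
  apply Subtype.ext
  apply Prod.ext
  · apply RingEquiv.ext
    intro x
    exact RingHom.congr_fun key x
  · exact hb

theorem ofAlgAut_mul_gal (hp : p.Prime) {w : FN p ≃ₐ[Kbar] FN p} (hw : w (jF p) = jp p)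
    (hw' : w (jp p) = jF p) (σ : GQ) :
    SemilinearAut.ofAlgAut w * gal p σ = gal p σ * SemilinearAut.ofAlgAut w := by
  apply semilinearAut_ext hp
  · rw [SemilinearAut.baseAut_mul, SemilinearAut.baseAut_mul, SemilinearAut.baseAut_ofAlgAut,
      one_mul, mul_one]
  · rw [mul_smul, mul_smul, gal_smul_jF, SemilinearAut.ofAlgAut_smul, hw, gal_smul_jp]
  · rw [mul_smul, mul_smul, gal_smul_jp, SemilinearAut.ofAlgAut_smul, hw', gal_smul_jF]

theorem ofAlgAut_mul_self (hp : p.Prime) {w : FN p ≃ₐ[Kbar] FN p} (hw : w (jF p) = jp p)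
    (hw' : w (jp p) = jF p) :
    SemilinearAut.ofAlgAut w * SemilinearAut.ofAlgAut w = 1 := by
  apply semilinearAut_ext hp
  · rw [SemilinearAut.baseAut_mul, SemilinearAut.baseAut_ofAlgAut, one_mul,
      SemilinearAut.baseAut_one]
  · rw [mul_smul, SemilinearAut.ofAlgAut_smul, SemilinearAut.ofAlgAut_smul, hw, hw', one_smul]
  · rw [mul_smul, SemilinearAut.ofAlgAut_smul, SemilinearAut.ofAlgAut_smul, hw', hw, one_smul]

/-- **The Atkin-Lehner involution on places.** -/
theorem exists_dual (hp : p.Prime) : ∃ D : Place Kbar (FN p) → Place Kbar (FN p),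
    (∀ x a b, IsPt p x a b → IsPt p (D x) b a) ∧ (∀ (σ : GQ) x, D (gal p σ • x) = gal p σ • D x) ∧
      (∀ x, D (D x) = x) ∧ D (oo p) = zz p ∧ D (zz p) = oo p ∧
      (∀ x, (D x).ord (jF p) = x.ord (jp p)) ∧ (∀ x, (D x).ord (jp p) = x.ord (jF p)) := by
  obtain ⟨w, hw, hw'⟩ := exists_W p hp
  set g := SemilinearAut.ofAlgAut w with hg
  have hord : ∀ (Q : Place Kbar (FN p)) (f : FN p), (g • Q).ord (w f) = Q.ord f := fun Q f =>
    SemilinearAut.ord_smul g Q f
  have hinv : ∀ x : Place Kbar (FN p), g • g • x = x := by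
    intro x
    rw [← mul_smul, hg, ofAlgAut_mul_self hp hw hw', one_smul]
  have hC := cuspFacts p hp
  have hp2 : (2 : ℤ) ≤ p := by exact_mod_cast hp.two_le
  have hoz : g • oo p = zz p := by
    have h1 : (g • oo p).ord (jF p) = -(p : ℤ) := by rw [← hw', hord, hC.oo_jp]
    rcases hC.pole_j (g • oo p) (by omega) with h | h
    · rw [h, hC.oo_j] at h1
      omega
    · exact h
  refine ⟨fun x => g • x, ?_, ?_, hinv, hoz, ?_, ?_, ?_⟩
  · intro x a b hx
    constructor
    · have h1 := hord x (jp p - algebraMap Kbar (FN p) b)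
      rw [map_sub, hw', AlgEquiv.commutes] at h1
      rw [h1]
      exact hx.hb
    · have h1 := hord x (jF p - algebraMap Kbar (FN p) a)
      rw [map_sub, hw, AlgEquiv.commutes] at h1
      show 0 < (g • x).ord (jp p - algebraMap Kbar (FN p) a)
      rw [h1]
      exact hx.ha
  · intro σ x
    show g • gal p σ • x = gal p σ • g • x
    rw [← mul_smul, ← mul_smul, hg, ofAlgAut_mul_gal hp hw hw']
  · show g • zz p = oo p
    rw [← hoz, hinv]
  · intro x
    show (g • x).ord (jF p) = _
    rw [← hw', hord]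
  · intro x
    show (g • x).ord (jp p) = _
    rw [← hw, hord]

theorem nearZero_swap {A : ValuationSubring Kbar} {a b : Kbar} (hp : p ≠ 0) (h : NearInf A p a b) :
    NearZero A p b a := by
  refine ⟨?_, h.2.symm⟩
  have h1 : 1 < A.valuation a := by
    rw [← not_le, ValuationSubring.valuation_le_one_iff]
    exact h.1
  rw [← ValuationSubring.valuation_le_one_iff, not_le, h.2]
  exact one_lt_pow₀ h1 hp

theorem nearInf_swap {A : ValuationSubring Kbar} {a b : Kbar} (h : NearZero A p a b) :
    NearInf A p b a := by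
  refine ⟨?_, h.2.symm⟩
  have h1 : 1 < A.valuation a := by
    rw [← not_le, ValuationSubring.valuation_le_one_iff]
    exact h.1
  intro hb
  rw [← ValuationSubring.valuation_le_one_iff] at hb
  rw [← h.2] at h1
  exact absurd (pow_le_one₀ zero_le hb) (not_le.2 h1)

end Fermat.Agent.S15.Red
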