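import Fermat.Agent.S15.Red.Cusp
import Fermat.Agent.S15.Contracts
import Fermat.Agent.S37.RDiv
import Fermat.Agent.DR.Conc.XiDeg
import Fermat.Agent.S28.CInt

/-!
# S15 / RED (concrete part): level `p` inside the neat level `p * c`

Instantiation of `Red/Cusp.lean` at `F₀ = FN p`, `F = FN (p * c)`, `α = heckeAlphaBar Kbar p c`,
`R = S37.redFN A (p * c) hM`, `j = jF p`, `j_p = FNAdjoin.jd p p dvd_rfl`, `oo = S17.Unr.oo p`, `zz = S15.zz p`.

Exports (helper68's numeric interface `IsPt / NearInf / NearZero`):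
`near_of_meter` (T1), `Rdiv_of_nearInf` (T2), `Rdiv_of_nearZero` (T3), `unique_nearInf` (T4), `Rdiv_disjoint` (T5), `cuspFacts`.
-/

set_option autoImplicit false
set_option linter.unusedSectionVars false

noncomputable section

namespace Fermat.Agent.S15.Red

open AlgebraicCurve ModularCurve Fermat.Agent.Lib.RR Fermat.Agent.GAL Fermat.Agent.GAL.RED
  Fermat.Agent.GAL.Hecke Fermat.Agent.GAL.Igusa Fermat.Agent.S24 Fermat.Agent.S19
  Fermat.Agent.S19.Weil Fermat.Agent.S37 Fermat.Agent.S17.Unr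

instance instIsFF_FN (M : ℕ) [NeZero M] : Lib.RR.IsFF Kbar (FN M) :=
  Fermat.Agent.GAL.Desc.isFF_FF_Kbar M

/-- `j_p = j(q^p)`. -/
abbrev jp (p : ℕ) [NeZero p] : FN p := FNAdjoin.jd p p dvd_rfl

/-! ## cusp facts at level `p` (characteristic `0`) -/

section Cusp

variable (p : ℕ) [NeZero p]

theorem Conc_coeff_jK : (coeffEmb Kbar jq).coeff (-1) = 1 := by
  rw [coeffEmb_coeff, coeff_jq_neg_one, map_one]

theorem Conc_jK_ne_zero : coeffEmb Kbar jq ≠ 0 := by
  intro h0
  have h1 := Conc_coeff_jK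
  rw [h0, HahnSeries.coeff_zero] at h1
  exact zero_ne_one h1

theorem Conc_order_jK : (coeffEmb Kbar jq).order = -1 := by
  apply le_antisymm
  · apply HahnSeries.order_le_of_coeff_ne_zero
    rw [Conc_coeff_jK]
    exact one_ne_zero
  · by_contra hlt
    have hlt' : (coeffEmb Kbar jq).order < -1 := not_le.1 hlt
    have h1 := HahnSeries.coeff_order_eq_zero.not.mpr Conc_jK_ne_zero
    rw [coeffEmb_coeff, coeff_jq_of_lt hlt', map_zero] at h1
    exact h1 rfl

theorem Conc_leadingCoeff_jK : (coeffEmb Kbar jq).leadingCoeff = 1 := by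
  rw [HahnSeries.leadingCoeff_eq, Conc_order_jK, Conc_coeff_jK]

theorem Conc_leadingCoeff_pow (x : LaurentSeries Kbar) (n : ℕ) :
    (x ^ n).leadingCoeff = x.leadingCoeff ^ n := by
  induction n with
  | zero => rw [pow_zero, pow_zero, HahnSeries.leadingCoeff_one]
  | succ n ih => rw [pow_succ, pow_succ, HahnSeries.leadingCoeff_mul, ih]

/-- value at `∞` = constant coefficient. (`ev_eq_iff`, `oo_ord`, `mem_iff_ord`.) -/
theorem ev_oo_eq_coeff {f : FN p} (hf : 0 ≤ (f : LaurentSeries Kbar).order) :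
    ev (oo p) f = (f : LaurentSeries Kbar).coeff 0 := by
  have hmem : f ∈ (oo p).toValuationSubring :=
    (mem_iff_ord _ _).2 (Or.inr (by rw [oo_ord]; exact hf))
  rw [ev_eq_iff _ hmem]
  by_cases h0 : f = algebraMap Kbar (FN p) ((f : LaurentSeries Kbar).coeff 0)
  · exact Or.inl h0
  · right
    rw [oo_ord]
    have hcoe : ((f - algebraMap Kbar (FN p) ((f : LaurentSeries Kbar).coeff 0) : FN p) :
        LaurentSeries Kbar) =
        (f : LaurentSeries Kbar) - HahnSeries.C ((f : LaurentSeries Kbar).coeff 0) := by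
      rw [← DR.Conc.coe_algebraMap_FN p]
      rfl
    have hg0 : (f : LaurentSeries Kbar) - HahnSeries.C ((f : LaurentSeries Kbar).coeff 0) ≠ 0 := by
      rw [← hcoe]
      intro h
      exact h0 (sub_eq_zero.1 (Subtype.ext h))
    rw [hcoe]
    by_contra hle
    have hle' := not_lt.1 hle
    apply HahnSeries.coeff_order_eq_zero.not.mpr hg0
    obtain ⟨n, hn⟩ : ∃ n, n = ((f : LaurentSeries Kbar) -
      HahnSeries.C ((f : LaurentSeries Kbar).coeff 0)).order := ⟨_, rfl⟩
    rw [← hn] at hle' ⊢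
    rw [HahnSeries.coeff_sub]
    rcases hle'.lt_or_eq with h | h
    · rw [HahnSeries.coeff_eq_zero_of_lt_order (lt_of_lt_of_le h hf), HahnSeries.C_apply,
        HahnSeries.coeff_single_of_ne h.ne, sub_zero]
    · rw [h, HahnSeries.C_apply, HahnSeries.coeff_single_same, sub_self]

/-- see the proof of `S17.Unr.exists_oo`. -/
theorem oo_ord_jF : (oo p).ord (jF p) = -1 := by
  rw [oo_ord]
  exact Conc_order_jK

/-- `oo_ord`, `FNAdjoin.coe_jd'`, order of `qExpand`. -/
theorem oo_ord_jp : (oo p).ord (jp p) = -(p : ℤ) := by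
  rw [oo_ord, FNAdjoin.coe_jd', DR.Conc.basis_order_qExpand, Conc_order_jK]
  ring

/-- the series `j(q^p) / j(q)^p` is `1 + O(q)`. -/
theorem ev_oo_f0 : ev (oo p) (jp p / jF p ^ p) = 1 := by
  have hJ0 := Conc_jK_ne_zero
  have hcoe : ((jp p / jF p ^ p : FN p) : LaurentSeries Kbar) =
      qExpand Kbar p (coeffEmb Kbar jq) / coeffEmb Kbar jq ^ p := by
    rw [← FNAdjoin.coe_jd' p p dvd_rfl]
    rfl
  have hJp0 : qExpand Kbar p (coeffEmb Kbar jq) ≠ 0 := fun h =>
    hJ0 (qExpand_injective (R := Kbar) (N := p) (by rw [h, map_zero]))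
  have hpow0 : coeffEmb Kbar jq ^ p ≠ 0 := pow_ne_zero _ hJ0
  have hG0 : qExpand Kbar p (coeffEmb Kbar jq) / coeffEmb Kbar jq ^ p ≠ 0 :=
    div_ne_zero hJp0 hpow0
  have hmul : qExpand Kbar p (coeffEmb Kbar jq) / coeffEmb Kbar jq ^ p * coeffEmb Kbar jq ^ p =
      qExpand Kbar p (coeffEmb Kbar jq) := div_mul_cancel₀ _ hpow0
  have hordp : (qExpand Kbar p (coeffEmb Kbar jq)).order = -(p : ℤ) := by
    rw [DR.Conc.basis_order_qExpand, Conc_order_jK]
    ring
  have hord : (qExpand Kbar p (coeffEmb Kbar jq) / coeffEmb Kbar jq ^ p).order = 0 := by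
    have h1 := HahnSeries.order_mul hG0 hpow0
    rw [hmul, hordp, HahnSeries.order_pow, Conc_order_jK] at h1
    simp only [nsmul_eq_mul] at h1
    linarith
  have hlead : (qExpand Kbar p (coeffEmb Kbar jq)).leadingCoeff = 1 := by
    have e : -(p : ℤ) = (p : ℤ) * (-1) := by ring
    rw [HahnSeries.leadingCoeff_eq, hordp, e, qExpand_coeff_mul, Conc_coeff_jK]
  rw [ev_oo_eq_coeff p (by rw [hcoe, hord]), hcoe]
  have h2 := HahnSeries.leadingCoeff_mul
    (qExpand Kbar p (coeffEmb Kbar jq) / coeffEmb Kbar jq ^ p) (coeffEmb Kbar jq ^ p)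
  rw [hmul, hlead, Conc_leadingCoeff_pow, Conc_leadingCoeff_jK, one_pow, mul_one,
    HahnSeries.leadingCoeff_eq, hord] at h2
  exact h2.symm

theorem exists_W_aux (hp : p.Prime) (n : ℕ) (hn : n = 1 * p) (hd : p ∣ n) :
    ∃ w : FN n ≃ₐ[Kbar] FN n, w (jF n) = FNAdjoin.jd n p hd ∧ w (FNAdjoin.jd n p hd) = jF n := by
  subst hn
  have hp1 : ¬ p ∣ 1 := by
    rw [Nat.dvd_one]
    exact hp.ne_one
  have h1 : jF (1 * p) = heckeAlphaBar Kbar 1 p (jF 1) := (DegreeAlpha.alpha_jF 1 p).symm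
  have h2 : FNAdjoin.jd (1 * p) p hd = heckeBetaBar Kbar 1 p (jF 1) := by
    rw [← FNAdjoin.jd_one 1, AtkinLehner.beta_jd]
    apply Subtype.ext
    rw [FNAdjoin.coe_jd', FNAdjoin.coe_jd']
    exact qExpand_congr (one_mul p).symm _
  refine ⟨DR.Conc.W 1 p hp hp1, ?_, ?_⟩
  · rw [h2, h1, DR.Conc.W_alpha]
  · rw [h2, h1, DR.Conc.W_beta]

/-- **Atkin-Lehner at level `p`**: transport `DR.Conc.W 1 p` along `1 * p = p`
(prove the statement for every `n` with `n = 1 * p` and `subst`; `W_alpha`, `W_beta`, `AtkinLehner.alpha_jd`, `AtkinLehner.beta_jd`,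
`FNAdjoin.jd_one`). -/
theorem exists_W (hp : p.Prime) : ∃ w : FN p ≃ₐ[Kbar] FN p, w (jF p) = jp p ∧ w (jp p) = jF p :=
  exists_W_aux p hp p (one_mul p).symm dvd_rfl

/-- `deg (j)_∞ = p + 1` (`DR.Conc.degree_poleDiv_jF`, `dedekindPsi` of a prime:
`Lib.Gamma0Cosets.dedekindPsi_prime_pow hp 0`). -/
theorem degree_poleDiv_jF_prime (hp : p.Prime) :
    Divisor.degree (RED.poleDiv (K := Kbar) (jF p)) = (p : ℤ) + 1 := by
  have h := Lib.Gamma0Cosets.dedekindPsi_prime_pow hp 0
  rw [zero_add, pow_one, pow_zero] at h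
  rw [DR.Conc.degree_poleDiv_jF, h]
  push_cast
  ring

/-- The facts on the two cusps. -/
structure CuspFacts : Prop where
  ne : zz p ≠ oo p
  oo_j : (oo p).ord (jF p) = -1
  zz_j : (zz p).ord (jF p) = -(p : ℤ)
  oo_jp : (oo p).ord (jp p) = -(p : ℤ)
  zz_jp : (zz p).ord (jp p) = -1
  pole_j : ∀ Q : Place Kbar (FN p), Q.ord (jF p) < 0 → Q = oo p ∨ Q = zz p
  pole_jp : ∀ Q : Place Kbar (FN p), Q.ord (jp p) < 0 → Q = oo p ∨ Q = zz p
  ev_oo : ev (oo p) (jp p / jF p ^ p) = 1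
  ev_zz : ev (zz p) (jF p / jp p ^ p) = 1

/-- abstract core of `exists_zz`. -/
theorem exists_zz_abs {K F : Type*} [Field K] [Field F] [Algebra K F] [Lib.RR.IsFF K F]
    [IsAlgClosed K] (p : ℕ) (hp : 2 ≤ p) (j j' : F) (o : Place K F) (w : F ≃ₐ[K] F)
    (hw : w j = j') (hw' : w j' = j) (ho : o.ord j = -1) (ho' : o.ord j' = -(p : ℤ))
    (hev : ev o (j' / j ^ p) = 1)
    (hdeg : Divisor.degree (RED.poleDiv (K := K) j) = (p : ℤ) + 1) :
    ∃ z₀ : Place K F, z₀ ≠ o ∧ z₀.ord j = -(p : ℤ) ∧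
    z₀.ord j' = -1 ∧ (∀ Q : Place K F, Q.ord j < 0 → Q = o ∨ Q = z₀) ∧
    (∀ Q : Place K F, Q.ord j' < 0 → Q = o ∨ Q = z₀) ∧
    ev z₀ (j / j' ^ p) = 1 := by
  classical
  set g := SemilinearAut.ofAlgAut w with hg
  have hord : ∀ (Q : Place K F) (f : F), (g • Q).ord (w f) = Q.ord f := fun Q f =>
    SemilinearAut.ord_smul g Q f
  have hord' : ∀ (Q : Place K F) (f : F), (g⁻¹ • Q).ord f = Q.ord (w f) := fun Q f => by
    rw [← hord (g⁻¹ • Q) f, smul_inv_smul]
  have hj0 : j ≠ 0 := by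
    rintro rfl
    simp at ho
  have hj'0 : j' ≠ 0 := by
    rintro rfl
    rw [map_zero] at hw'
    exact hj0 hw'.symm
  set z₀ := g⁻¹ • o with hz₀
  have hzj : z₀.ord j = -(p : ℤ) := by rw [hz₀, hord', hw, ho']
  have hzj' : z₀.ord j' = -1 := by rw [hz₀, hord', hw', ho]
  have hne : z₀ ≠ o := by
    intro h
    rw [h, ho] at hzj
    have : (2 : ℤ) ≤ p := by exact_mod_cast hp
    omega
  have hpole : ∀ Q : Place K F, Q.ord j < 0 → Q = o ∨ Q = z₀ := by
    intro Q hQ
    by_contra hcon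
    push Not at hcon
    set D : Divisor K F := RED.poleDiv (K := K) j - Finsupp.single o 1 - Finsupp.single z₀ (p : ℤ)
      with hD
    have h0 : 0 ≤ D := by
      intro v
      simp only [hD, Finsupp.coe_zero, Pi.zero_apply, Finsupp.sub_apply, RED.poleDiv_apply,
        Finsupp.single_apply]
      split_ifs with h1 h2 h2
      · exact absurd (h2.trans h1.symm) hne
      · rw [← h1, ho]; simp
      · rw [← h2, hzj]; simp
      · simp
    have h3 : Divisor.degree D = 0 := by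
      rw [hD, map_sub, map_sub, hdeg]
      have e1 : Divisor.degree (Finsupp.single o (1 : ℤ) : Divisor K F) = 1 := by
        rw [RED.degree_eq_sum, Finsupp.sum_single_index rfl]
      have e2 : Divisor.degree (Finsupp.single z₀ (p : ℤ) : Divisor K F) = p := by
        rw [RED.degree_eq_sum, Finsupp.sum_single_index rfl]
      rw [e1, e2]; ring
    have h4 := eq_zero_of_nonneg_of_degree h0 h3
    have h5 : D Q = 0 := by rw [h4]; rfl
    simp only [hD, Finsupp.sub_apply, RED.poleDiv_apply, Finsupp.single_apply,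
      if_neg (Ne.symm hcon.1), if_neg (Ne.symm hcon.2)] at h5
    have : max (-Q.ord j) 0 = -Q.ord j := max_eq_left (by omega)
    omega
  have hgo : g • o = z₀ := by
    have h1 : (g • o).ord j = -(p : ℤ) := by rw [← hw', hord, ho']
    have hp' : (2 : ℤ) ≤ p := by exact_mod_cast hp
    rcases hpole (g • o) (by omega) with h | h
    · rw [h, ho] at h1; omega
    · exact h
  refine ⟨z₀, hne, hzj, hzj', hpole, ?_, ?_⟩
  · intro Q hQ
    have h1 : (g⁻¹ • Q).ord j < 0 := by rw [hord', hw]; exact hQ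
    rcases hpole _ h1 with h | h
    · right
      rw [← hgo, ← h, smul_inv_smul]
    · left
      exact smul_left_cancel _ h
  · have hwf : w (j / j' ^ p) = j' / j ^ p := by rw [map_div₀, map_pow, hw, hw']
    have hmem : j' / j ^ p ∈ o.toValuationSubring := by
      rw [mem_iff_ord]
      right
      rw [RED.ord_div o hj'0 (pow_ne_zero p hj0), RED.ord_pow, ho, ho']
      simp
    have hmem' : j / j' ^ p ∈ z₀.toValuationSubring := by
      rw [mem_iff_ord]
      right
      rw [RED.ord_div z₀ hj0 (pow_ne_zero p hj'0), RED.ord_pow, hzj, hzj']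
      simp
    rw [ev_eq_iff z₀ hmem']
    rcases (ev_eq_iff o hmem 1).1 hev with h | h
    · left
      apply w.injective
      rw [hwf, h, AlgEquiv.commutes]
    · right
      rw [hz₀, hord', map_sub, hwf, AlgEquiv.commutes]
      exact h

/-- abstract core: a function `j` whose polar divisor has degree `p + 1`, a place `oo` with `ord j = -1`, an
automorphism `w` with `w j = jp`, `w jp = j`, `oo.ord jp = -p`.  Then `z₀ := (ofAlgAut w)⁻¹ • oo` (so that
`z₀.ord f = oo.ord (w f)`, `SemilinearAut.ord_smul`) has `ord j = -p`, `ord jp = -1`, and `oo`, `z₀` are the only poles of `j`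
(count degrees: `RED.degree_eq_sum`) and of `jp` (apply `w`). -/
theorem exists_zz (hp : p.Prime) : ∃ z₀ : Place Kbar (FN p), z₀ ≠ oo p ∧ z₀.ord (jF p) = -(p : ℤ) ∧
    z₀.ord (jp p) = -1 ∧ (∀ Q : Place Kbar (FN p), Q.ord (jF p) < 0 → Q = oo p ∨ Q = z₀) ∧
    (∀ Q : Place Kbar (FN p), Q.ord (jp p) < 0 → Q = oo p ∨ Q = z₀) ∧
    ev z₀ (jF p / jp p ^ p) = 1 := by
  obtain ⟨w, hw, hw'⟩ := exists_W p hp
  exact exists_zz_abs p hp.two_le (jF p) (jp p) (oo p) w hw hw' (oo_ord_jF p) (oo_ord_jp p)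
    (ev_oo_f0 p) (degree_poleDiv_jF_prime p hp)

/-- `zz p` is the `z₀` of `exists_zz` (`zz` is a choice of a pole `≠ oo`; uniqueness from `exists_zz`). -/
theorem cuspFacts (hp : p.Prime) : CuspFacts p := by
  obtain ⟨z₀, h1, h2, h3, h4, h5, h6⟩ := exists_zz p hp
  have hp0 : (0 : ℤ) < p := by exact_mod_cast hp.pos
  have hex : ∃ v : Place Kbar (FN p), v ≠ S15.oo p ∧ v.ord (jF p) < 0 := ⟨z₀, h1, by omega⟩
  have hzz : zz p = z₀ := by
    have e : zz p = hex.choose := by
      unfold zz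
      rw [dif_pos hex]
    have hs := hex.choose_spec
    rw [← e] at hs
    exact (h4 _ hs.2).resolve_left hs.1
  rw [← hzz] at h1 h2 h3 h4 h5 h6
  exact ⟨h1, oo_ord_jF p, h2, oo_ord_jp p, h3, h4, h5, ev_oo_f0 p, h6⟩

end Cusp

/-! ## integrality -/

/-- `j` is integral over `ℤ[j_p]`: `S28` `BData` (`Φ.map (evBase p K) = (X - rootInf) ∏_b (X - rootFin ζ b)`, `rootFin ζ 0 = j(t)`,
base `j(t^p)`), `Fermat.Agent.S28.statementB` (see how `S28/CInt.lean` `Phi_jd`, `isIntegral_of_evY` use it).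
So at a place `Q` where `j_p` is regular with value in `A`, `j` is regular (`Igusa.mem_place_of_isIntegral`)
and its value is a root of a monic polynomial with coefficients in `A` (integrally closed). -/
theorem ev_jF_mem_of_ev_jp_mem (p : ℕ) [NeZero p] (hp : p.Prime) (A : ValuationSubring Kbar)
    (Q : Place Kbar (FN p)) (hQ : jp p ∈ Q.toValuationSubring) (hA : ev Q (jp p) ∈ A) :
    jF p ∈ Q.toValuationSubring ∧ ev Q (jF p) ∈ A := by
  classical
  obtain ⟨Φ, U, G, m, c, hB⟩ := S28.statementB S28.statementA p hp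
  have hΦ : Φ.Monic := hB.2.1
  have hpK : ((p : ℕ) : Kbar) ≠ 0 := Nat.cast_ne_zero.mpr hp.ne_zero
  obtain ⟨ζ, hζ⟩ := S28.exists_prim (K := Kbar) (p := p) hpK
  have hfac := (hB.2.2.2.2.2.2 Kbar ζ hζ).1
  have hL : (Φ.map (S28.evY (qExpand Kbar p (jqModC Kbar)))).eval (jqModC Kbar) = 0 := by
    have h1 : Φ.map (S28.evY (qExpand Kbar p (jqModC Kbar))) = Φ.map (S28.evBase p Kbar) := rfl
    rw [h1, hfac, Polynomial.eval_mul, Polynomial.eval_prod]
    have h2 : ∏ b ∈ Finset.range p,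
        (Polynomial.X - Polynomial.C (S28.rootFin ζ b)).eval (jqModC Kbar) = 0 := by
      apply Finset.prod_eq_zero (Finset.mem_range.2 hp.pos)
      have h3 : S28.rootFin ζ 0 = jqModC Kbar := by
        ext n
        rw [S28.rootFin, pow_zero, S28.twist_coeff, one_zpow, Units.val_one, one_mul]
      rw [h3, Polynomial.eval_sub, Polynomial.eval_X, Polynomial.eval_C, sub_self]
    rw [h2, mul_zero]
  have hroot : (Φ.map (S28.evY (jp p))).eval (jF p) = 0 := by
    apply Subtype.val_injective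
    have h2 := S28.map_eval_evY (algebraMap (FN p) (LaurentSeries Kbar)) (jp p) (jF p) Φ
    have e1 : algebraMap (FN p) (LaurentSeries Kbar) (jF p) = jqModC Kbar :=
      Igusa.LevelDeg_coeffEmb_jq
    have e2 : algebraMap (FN p) (LaurentSeries Kbar) (jp p) = qExpand Kbar p (jqModC Kbar) := by
      have h3 := FNAdjoin.coe_jd' p p dvd_rfl
      rw [Igusa.LevelDeg_coeffEmb_jq] at h3
      exact h3
    rw [e1, e2, hL] at h2
    exact h2
  have hint : IsIntegral (Algebra.adjoin Kbar {jp p}) (jF p) :=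
    S28.isIntegral_of_evY Φ hΦ (jp p) (jF p)
      (isIntegral_algebraMap (R := Algebra.adjoin Kbar {jp p}) (A := FN p)
        (x := ⟨jp p, Algebra.subset_adjoin (Set.mem_singleton _)⟩)) hroot
  have hj : jF p ∈ Q.toValuationSubring := Igusa.mem_place_of_isIntegral Q hQ hint
  refine ⟨hj, ?_⟩
  have h3 := S28.map_eval_evY (resK Q) ⟨jp p, hQ⟩ ⟨jF p, hj⟩ Φ
  have h4 : (Φ.map (S28.evY (⟨jp p, hQ⟩ : Q.toValuationSubring))).eval ⟨jF p, hj⟩ = 0 := by
    apply Subtype.val_injective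
    have h5 := S28.map_eval_evY (algebraMap Q.toValuationSubring (FN p)) ⟨jp p, hQ⟩ ⟨jF p, hj⟩ Φ
    exact h5.trans hroot
  rw [h4, map_zero] at h3
  have e3 : resK Q ⟨jp p, hQ⟩ = ev Q (jp p) := (GRed.of_mem _ _ hQ).symm
  have e4 : resK Q ⟨jF p, hj⟩ = ev Q (jF p) := (GRed.of_mem _ _ hj).symm
  rw [e3, e4] at h3
  have h6 : IsIntegral A (ev Q (jF p)) :=
    S28.isIntegral_of_evY Φ hΦ (ev Q (jp p)) (ev Q (jF p))
      (isIntegral_algebraMap (R := A) (A := Kbar) (x := (⟨ev Q (jp p), hA⟩ : A))) h3.symm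
  obtain ⟨z, hz⟩ := IsIntegrallyClosed.isIntegral_iff.mp h6
  rw [← hz]
  exact z.2

/-! ## the Gauss reduction datum at level `p * c` -/

section Level

variable (p c : ℕ) [NeZero p] [NeZero c] (A : ValuationSubring Kbar)
  [IsAlgClosed (IsLocalRing.ResidueField ↥A)]
  [Lib.RR.IsFF (IsLocalRing.ResidueField ↥A) (E (IsLocalRing.ResidueField ↥A) (p * c))]
  (hM : ((p * c : ℕ) : IsLocalRing.ResidueField ↥A) ≠ 0)

/-- `α (jF p) = jF (p * c)` (`coe_heckeAlphaBar`). -/
theorem alpha_jF : heckeAlphaBar Kbar p c (jF p) = jF (p * c) := by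
  apply Subtype.ext
  rw [coe_heckeAlphaBar]
  rfl

/-- `red (jF M) = jb` as in `DR.Conc.RM_red_jF` (with `redFN_incl`). -/
theorem redFN_red_jF : (redFN A (p * c) hM).red (jF (p * c)) =
    Igusa.jb (IsLocalRing.ResidueField ↥A) (p * c) := by
  apply Subtype.ext
  have hz : ((jF (p * c) : FN (p * c)) : LaurentSeries Kbar) = incl A (jqModC ↥A) := by
    have h1 : incl A (jqModC ↥A) = jqModC Kbar := Gauss.iA_jqModC A
    rw [h1]
    exact Igusa.LevelDeg_coeffEmb_jq
  rw [(redFN_incl hM _ _ hz).2]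
  exact Gauss.pA_jqModC A

/-- `DR.Conc.Level_degree_poleDiv_jF`, `DR.Conc.Level_degree_poleDiv_jb`. -/
theorem noColl : NoColl (redFN A (p * c) hM) (heckeAlphaBar Kbar p c (jF p)) := by
  rw [alpha_jF]
  refine ⟨?_, ?_⟩
  · rw [redFN_red_jF]
    intro h0
    exact Igusa.transcendental_jb (IsLocalRing.ResidueField ↥A) (p * c) (h0 ▸ isAlgebraic_zero)
  · rw [redFN_red_jF, DR.Conc.Level_degree_poleDiv_jF, DR.Conc.Level_degree_poleDiv_jb A (p * c) hM]

/-- the `q`-expansion of `j(q^p)` has integer coefficients and leading coefficient `1`: `redFN_incl`. -/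
theorem red_alpha_jp_ne : (redFN A (p * c) hM).red (heckeAlphaBar Kbar p c (jp p)) ≠ 0 := by
  have hz : ((heckeAlphaBar Kbar p c (jp p) : FN (p * c)) : LaurentSeries Kbar) =
      incl A (qExpand ↥A p (jqModC ↥A)) := by
    have h1 : incl A (qExpand ↥A p (jqModC ↥A)) = qExpand Kbar p (jqModC Kbar) := by
      have h2 := Gauss.iA_qExpand A p (jqModC ↥A)
      rw [Gauss.iA_jqModC] at h2
      exact h2
    rw [h1, coe_heckeAlphaBar]
    have h3 := FNAdjoin.coe_jd' p p dvd_rfl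
    rw [Igusa.LevelDeg_coeffEmb_jq] at h3
    exact h3
  intro h0
  have h4 := (redFN_incl hM _ _ hz).2
  rw [h0] at h4
  have h5 : red A (qExpand ↥A p (jqModC ↥A)) =
      qExpand (IsLocalRing.ResidueField ↥A) p (jqModC (IsLocalRing.ResidueField ↥A)) := by
    have h6 := Gauss.pA_qExpand A p (jqModC ↥A)
    rw [Gauss.pA_jqModC] at h6
    exact h6
  rw [h5] at h4
  have h7 : jqModC (IsLocalRing.ResidueField ↥A) = 0 :=
    qExpand_injective (R := IsLocalRing.ResidueField ↥A) p (by rw [← h4, map_zero]; rfl)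
  have h8 : Igusa.jb (IsLocalRing.ResidueField ↥A) (p * c) = 0 := Subtype.ext h7
  exact Igusa.transcendental_jb (IsLocalRing.ResidueField ↥A) (p * c) (h8 ▸ isAlgebraic_zero)

theorem cd (hp : p.Prime) :
    CD (redFN A (p * c) hM) (heckeAlphaBar Kbar p c) (jF p) (jp p) (oo p) (zz p) p := by
  have C := cuspFacts p hp
  refine ⟨hp.two_le, C.oo_j, C.zz_j, C.oo_jp, C.zz_jp, C.pole_j, C.pole_jp, C.ev_oo, C.ev_zz, ?_,
    noColl p c A hM, red_alpha_jp_ne p c A hM⟩
  intro Q hQ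
  rw [redFN_A]
  refine ev_jF_mem_of_ev_jp_mem p hp A Q ?_ ?_
  · rw [mem_iff_ord]
    exact Or.inr hQ.le
  · rw [ev_eq_zero_of_ord_pos Q hQ]
    exact A.zero_mem

theorem Rd_eq_Rdiv (r : Place Kbar (FN (p * c)) →
    Place (IsLocalRing.ResidueField ↥A) (E (IsLocalRing.ResidueField ↥A) (p * c))) :
    Rd (heckeAlphaBar Kbar p c) (integral_alpha p c) r = Rdiv r := rfl

/-! ### the numeric interface -/

variable {p}

/-- `ev_eq_iff`, `mem_iff_ord` (a function `f` with `0 < ord (f - a)` is regular). -/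
theorem isPt_ev {x : Place Kbar (FN p)} {a b : Kbar} (h : IsPt p x a b) :
    jF p ∈ x.toValuationSubring ∧ ev x (jF p) = a ∧ ev x (jp p) = b := by
  have key : ∀ (f : FN p) (e : Kbar), 0 < x.ord (f - algebraMap Kbar (FN p) e) →
      f ∈ x.toValuationSubring ∧ ev x f = e := by
    intro f e he
    have h1 : f - algebraMap Kbar (FN p) e ∈ x.toValuationSubring :=
      (mem_iff_ord x _).2 (Or.inr he.le)
    have h2 : f ∈ x.toValuationSubring := by
      have := add_mem h1 (Ev_algebraMap_mem x e)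
      rwa [sub_add_cancel] at this
    exact ⟨h2, (ev_eq_iff x h2 e).2 (Or.inr he)⟩
  exact ⟨(key _ _ h.ha).1, (key _ _ h.ha).2, (key _ _ h.hb).2⟩

variable {A}

/-- `|u| = 1 ⟹ redA u ≠ 0` for `R = redFN`; (`redFN_A`; `RedData.redA`, the kernel of `resA` is the maximal ideal;
look at `redA_inv_of_not_mem` in `Red/Cusp.lean` and at `GAL/RED/Basic.lean`). -/
theorem redA_ne_zero_of_valuation_eq_one {u : Kbar} (hu : A.valuation u = 1) :
    (redFN A (p * c) hM).redA u ≠ 0 := by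
  rw [RedData.redA_ne_zero_iff, redFN_A]
  refine ⟨?_, (A.valuation_le_one_iff u).1 hu.le, ?_⟩
  · rintro rfl
    rw [map_zero] at hu
    exact zero_ne_one hu
  · rw [← A.valuation_le_one_iff, map_inv₀, hu, inv_one]

theorem valuation_eq_one_of_redA_ne_zero {u : Kbar} (hu : (redFN A (p * c) hM).redA u ≠ 0) :
    A.valuation u = 1 := by
  rw [RedData.redA_ne_zero_iff, redFN_A] at hu
  obtain ⟨h0, h1, h2⟩ := hu
  apply le_antisymm ((A.valuation_le_one_iff u).2 h1)
  have h3 := (A.valuation_le_one_iff _).2 h2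
  rw [map_inv₀] at h3
  have h4 : A.valuation u ≠ 0 := (Valuation.ne_zero_iff _).2 h0
  rwa [inv_le_one₀ (zero_lt_iff.2 h4)] at h3

/-- `redA u = 0`, `u ∈ A` ⟺ `|u| < 1`. -/
theorem redA_eq_zero_iff {u : Kbar} (hu : u ∈ A) :
    (redFN A (p * c) hM).redA u = 0 ↔ A.valuation u < 1 := by
  constructor
  · intro h
    by_contra hlt
    have h1 : A.valuation u = 1 := le_antisymm ((A.valuation_le_one_iff u).2 hu) (not_lt.1 hlt)
    exact redA_ne_zero_of_valuation_eq_one c hM h1 h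
  · intro h
    by_contra h0
    exact h.ne (valuation_eq_one_of_redA_ne_zero c hM h0)

theorem nearInf_redA_ne {a b : Kbar} (h : NearInf A p a b) :
    (redFN A (p * c) hM).redA (b / a ^ p) ≠ 0 := by
  apply redA_ne_zero_of_valuation_eq_one
  have ha0 : a ≠ 0 := by
    rintro rfl
    exact h.1 A.zero_mem
  have h1 : A.valuation a ^ p ≠ 0 := pow_ne_zero _ ((Valuation.ne_zero_iff _).2 ha0)
  rw [map_div₀, map_pow, h.2, div_self h1]

theorem nearZero_redA_ne {a b : Kbar} (h : NearZero A p a b) :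
    (redFN A (p * c) hM).redA (a / b ^ p) ≠ 0 := by
  apply redA_ne_zero_of_valuation_eq_one
  have ha0 : a ≠ 0 := by
    rintro rfl
    exact h.1 A.zero_mem
  have h1 : A.valuation a ≠ 0 := (Valuation.ne_zero_iff _).2 ha0
  rw [map_div₀, map_pow, h.2, div_self h1]

variable {c} {hM}
variable {r : Place Kbar (FN (p * c)) →
    Place (IsLocalRing.ResidueField ↥A) (E (IsLocalRing.ResidueField ↥A) (p * c))}

/-- **T1 (meter criterion).**  `f` has an `A`-integral `q`-expansion (`z`), its poles are at places with integral `j`-value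
(e.g. zeros of `j`), it vanishes at the cusp `0` and its value at `∞` is a unit. -/
theorem near_of_meter (hp : p.Prime) (hr : IsRedMap (redFN A (p * c) hM) r) {f : FN p}
    (hf : heckeAlphaBar Kbar p c f ∈ (redFN A (p * c) hM).O)
    (hpol : ∀ Q : Place Kbar (FN p), Q.ord f < 0 →
      jF p ∈ Q.toValuationSubring ∧ ev Q (jF p) ∈ A)
    (hzz : 0 < (zz p).ord f) (hoo : A.valuation (ev (oo p) f) = 1)
    {x : Place Kbar (FN p)} {a b : Kbar} (hx : IsPt p x a b) (ha : a ∉ A) :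
    ev x f ∈ A ∧ (A.valuation (ev x f) = 1 → NearInf A p a b) ∧
      (A.valuation (ev x f) < 1 → NearZero A p a b) := by
  obtain ⟨h1, h2, h3⟩ := isPt_ev hx
  have ha' : ev x (jF p) ∉ (redFN A (p * c) hM).A := by
    rw [redFN_A, h2]; exact ha
  have hpol' : PolesInt₀ (redFN A (p * c) hM) (jF p) f := by
    intro Q hQ
    rw [redFN_A]
    exact hpol Q hQ
  obtain ⟨k1, k2, k3⟩ := (cd p c A hM hp).near_of_meter
    (finiteAlong_alpha p c) hr hf hpol' hzz (redA_ne_zero_of_valuation_eq_one c hM hoo) h1 ha'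
  rw [redFN_A] at k1
  rw [h2, h3] at k2 k3
  have ha0 : a ≠ 0 := by
    rintro rfl
    exact ha A.zero_mem
  refine ⟨k1, fun hv => ⟨ha, ?_⟩, fun hv => ⟨ha, ?_⟩⟩
  · have h4 := k2 (redA_ne_zero_of_valuation_eq_one c hM hv)
    have h5 : A.valuation (b / a ^ p) = 1 :=
      valuation_eq_one_of_redA_ne_zero c hM (by rw [h4]; exact one_ne_zero)
    have h6 : A.valuation a ^ p ≠ 0 := pow_ne_zero _ ((Valuation.ne_zero_iff _).2 ha0)
    rw [map_div₀, map_pow, div_eq_one_iff_eq h6] at h5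
    exact h5
  · have h4 := k3 ((redA_eq_zero_iff c hM k1).2 hv)
    have h5 : A.valuation (a / b ^ p) = 1 :=
      valuation_eq_one_of_redA_ne_zero c hM (by rw [h4]; exact one_ne_zero)
    rw [map_div₀, map_pow] at h5
    have h6 : A.valuation b ^ p ≠ 0 := by
      intro h0
      rw [h0, div_zero] at h5
      exact zero_ne_one h5
    rw [div_eq_one_iff_eq h6] at h5
    exact h5.symm

/-- **T2.** -/
theorem Rdiv_of_nearInf (hp : p.Prime) (hr : IsRedMap (redFN A (p * c) hM) r)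
    {x : Place Kbar (FN p)} {a b : Kbar} (hx : IsPt p x a b) (h : NearInf A p a b) :
    Rdiv r (Finsupp.single x 1) = Rdiv r (Finsupp.single (oo p) 1) := by
  obtain ⟨h1, h2, h3⟩ := isPt_ev hx
  have ha : ev x (jF p) ∉ (redFN A (p * c) hM).A := by
    rw [redFN_A, h2]; exact h.1
  refine (cd p c A hM hp).Rd_of_nearInf (hα := integral_alpha p c) (finiteAlong_alpha p c) hr h1 ha ?_
  rw [h2, h3]
  exact nearInf_redA_ne c hM h

/-- **T3.** -/
theorem Rdiv_of_nearZero (hp : p.Prime) (hr : IsRedMap (redFN A (p * c) hM) r)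
    {x : Place Kbar (FN p)} {a b : Kbar} (hx : IsPt p x a b) (h : NearZero A p a b) :
    Rdiv r (Finsupp.single x 1) = Rdiv r (Finsupp.single (zz p) 1) := by
  obtain ⟨h1, h2, h3⟩ := isPt_ev hx
  have ha : ev x (jF p) ∉ (redFN A (p * c) hM).A := by
    rw [redFN_A, h2]; exact h.1
  refine (cd p c A hM hp).Rd_of_nearZero (hα := integral_alpha p c) (finiteAlong_alpha p c) hr h1 ha ?_
  rw [h2, h3]
  exact nearZero_redA_ne c hM h

/-- **T4.** -/
theorem unique_nearInf (hp : p.Prime) (hr : IsRedMap (redFN A (p * c) hM) r)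
    {x y : Place Kbar (FN p)} {a b b' : Kbar} (hx : IsPt p x a b) (hy : IsPt p y a b')
    (h : NearInf A p a b) (h' : NearInf A p a b') : x = y := by
  obtain ⟨h1, h2, h3⟩ := isPt_ev hx
  obtain ⟨h1', h2', h3'⟩ := isPt_ev hy
  have ha : ev x (jF p) ∉ (redFN A (p * c) hM).A := by
    rw [redFN_A, h2]; exact h.1
  refine (cd p c A hM hp).unique_nearInf (integral_alpha p c) (finiteAlong_alpha p c) hr h1 ha ?_ h1'
    (h2'.trans h2.symm) ?_
  · rw [h2, h3]
    exact nearInf_redA_ne c hM h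
  · rw [h2', h3']
    exact nearInf_redA_ne c hM h'

end Level

end Fermat.Agent.S15.Red
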