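import Fermat.Agent.S15.Red.Conc
import Fermat.Agent.S37.Main
import Fermat.Agent.GAL.Igusa.Final

/-!
# S15 / RED (top): `r`-free wrappers, Galois fixedness, disjointness of the reductions of the two cusps
-/

set_option autoImplicit false
set_option linter.unusedSectionVars false

noncomputable section

namespace Fermat.Agent.S15.Red

open AlgebraicCurve ModularCurve Fermat.Agent.Lib.RR Fermat.Agent.GAL Fermat.Agent.GAL.RED
  Fermat.Agent.GAL.Hecke Fermat.Agent.GAL.Igusa Fermat.Agent.S24 Fermat.Agent.S19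
  Fermat.Agent.S19.Weil Fermat.Agent.S37 Fermat.Agent.S17.Unr

/-! ## disjointness (abstract + concrete) -/

section Disj

variable {K F k Fb : Type*} [Field K] [Field F] [Algebra K F] [Field k] [Field Fb] [Algebra k Fb]
  [Lib.RR.IsFF K F] [IsAlgClosed K] [Lib.RR.IsFF k Fb] [IsAlgClosed k]
  {R : RedData K F k Fb} {r : Place K F → Place k Fb}
  [CharZero K] {F₀ : Type*} [Field F₀] [Algebra K F₀] [Lib.RR.IsFF K F₀]
  {α : F₀ →ₐ[K] F} {hα : α.toRingHom.IsIntegral} {j j' : F₀} {oo zz : Place K F₀} {p : ℕ}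

/-- places over `oo` and over `zz` have different reductions.
PROOF. `C.ev_congr hr C.f0_mem C.f0_polesInt (w := w) (Z := w')` (`w'` is a pole of `α j`: `ord_alpha_neg`, `C.zz_j`):
`redA (ev oo f0) = redA (ev zz f0)`, i.e. `redA 1 = redA 0` (`C.ev_oo`, `ev_eq_zero_of_ord_pos`, `C.f0_ord_zz`). -/
theorem CD.r_ne (C : CD R α j j' oo zz p) (hr : IsRedMap R r) {w w' : Place K F}
    (hw : w.restrictAlong α hα = oo) (hw' : w'.restrictAlong α hα = zz) : r w ≠ r w' := by
  intro heq
  have hneg : (w'.restrictAlong α hα).ord j < 0 := by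
    rw [hw', C.zz_j]
    have := C.hp
    omega
  have hZ : w'.ord (α j) < 0 := ord_alpha_neg (hα := hα) hneg
  have h2 := (C.ev_congr (hα := hα) hr C.f0_mem C.f0_polesInt hZ heq).2
  rw [hw, hw', C.ev_oo, ev_eq_zero_of_ord_pos zz C.f0_ord_zz, R.redA_zero, R.redA_one] at h2
  exact one_ne_zero h2

/-- `Finsupp.mapDomain_support`, `pullbackAlong_pt_apply_ne_zero`. -/
theorem CD.disjoint (C : CD R α j j' oo zz p) (hr : IsRedMap R r) :
    Disjoint (Rd α hα r (Finsupp.single oo 1)).support (Rd α hα r (Finsupp.single zz 1)).support := by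
  classical
  rw [Finset.disjoint_left]
  intro y hy hy'
  rw [Rd_apply] at hy hy'
  have h1 := Finsupp.mapDomain_support hy
  have h2 := Finsupp.mapDomain_support hy'
  rw [Finset.mem_image] at h1 h2
  obtain ⟨w, hw, rfl⟩ := h1
  obtain ⟨w', hw', heq⟩ := h2
  exact C.r_ne (hα := hα) hr
    (pullbackAlong_pt_apply_ne_zero α hα oo w (Finsupp.mem_support_iff.mp hw))
    (pullbackAlong_pt_apply_ne_zero α hα zz w' (Finsupp.mem_support_iff.mp hw')) heq.symm

end Disj

/-- **T5.** -/
theorem Rdiv_disjoint {p c : ℕ} [NeZero p] [NeZero c] {A : ValuationSubring Kbar}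
    [IsAlgClosed (IsLocalRing.ResidueField ↥A)]
    [Lib.RR.IsFF (IsLocalRing.ResidueField ↥A) (E (IsLocalRing.ResidueField ↥A) (p * c))]
    {hM : ((p * c : ℕ) : IsLocalRing.ResidueField ↥A) ≠ 0}
    {r : Place Kbar (FN (p * c)) →
      Place (IsLocalRing.ResidueField ↥A) (E (IsLocalRing.ResidueField ↥A) (p * c))}
    (hp : p.Prime) (hr : IsRedMap (redFN A (p * c) hM) r) :
    Disjoint (Rdiv r (Finsupp.single (oo p) 1)).support (Rdiv r (Finsupp.single (zz p) 1)).support :=
  (cd p c A hM hp).disjoint (hα := integral_alpha p c) hr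

/-! ## existence of a neat auxiliary level and of a reduction map -/

/-- Elimination principle: to prove `P` one may assume a neat level `p * c` prime to `ℓ` and a reduction map.
PROOF: as in `S37.specializationExists_of` / `S37.Main_aux`: `c = 9` if `ℓ = 2`, `c = 4` otherwise;
`INJ.isAlgClosed_residueField A`, `Igusa.isFF_E`, `Igusa.genusFF_eq'`, `S37.genusFF_congr (modularFunctionFieldBar_eq_fullC _)`,
`RED.exists_isRedMap (redFN A (p * c) hM) (redFN_isCartesian hM) hg`. -/
theorem with_red (p : ℕ) [NeZero p] {ℓ : ℕ} (hℓ : ℓ.Prime) (hℓp : ¬ ℓ ∣ p)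
    (A : ValuationSubring Kbar) (hA : A.LiesOverPrime ℓ) {P : Prop}
    (H : ∀ (c : ℕ) [NeZero c] [IsAlgClosed (IsLocalRing.ResidueField ↥A)]
      (hM : ((p * c : ℕ) : IsLocalRing.ResidueField ↥A) ≠ 0)
      [Lib.RR.IsFF (IsLocalRing.ResidueField ↥A) (E (IsLocalRing.ResidueField ↥A) (p * c))]
      (r : Place Kbar (FN (p * c)) →
        Place (IsLocalRing.ResidueField ↥A) (E (IsLocalRing.ResidueField ↥A) (p * c))),
      IsRedMap (redFN A (p * c) hM) r → P) : P := by
  have hchar := charP_residueField A hℓ hA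
  have key : ∀ (c : ℕ) [NeZero c], ¬ ℓ ∣ p * c → (4 ∣ p * c ∨ 9 ∣ p * c) → P := by
    intro c _ hℓc hneat
    have hM : ((p * c : ℕ) : IsLocalRing.ResidueField ↥A) ≠ 0 := by
      rw [Ne, CharP.cast_eq_zero_iff (IsLocalRing.ResidueField ↥A) ℓ]
      exact hℓc
    have i1 := INJ.isAlgClosed_residueField A
    have i2 := Igusa.isFF_E (IsLocalRing.ResidueField ↥A) (p * c) hM
    have hg : genusFF Kbar (FN (p * c)) =
        genusFF (IsLocalRing.ResidueField ↥A) (E (IsLocalRing.ResidueField ↥A) (p * c)) := by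
      rw [Igusa.genusFF_eq' A (p * c) hM hneat]
      exact genusFF_congr (modularFunctionFieldBar_eq_fullC (p * c))
    obtain ⟨r, hr⟩ := RED.exists_isRedMap (redFN A (p * c) hM) (redFN_isCartesian hM) hg
    exact H c hM r hr
  by_cases h2 : ℓ = 2
  · have : NeZero 9 := ⟨by norm_num⟩
    refine key 9 ?_ (Or.inr (Dvd.intro_left p rfl))
    intro h
    rcases hℓ.dvd_mul.1 h with h | h
    · exact hℓp h
    · rw [h2] at h
      norm_num at h
  · have : NeZero 4 := ⟨by norm_num⟩
    refine key 4 ?_ (Or.inl (Dvd.intro_left p rfl))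
    intro h
    rcases hℓ.dvd_mul.1 h with h | h
    · exact hℓp h
    · have h4 : ℓ ∣ 2 ^ 2 := by norm_num; exact h
      exact h2 ((Nat.prime_dvd_prime_iff_eq hℓ Nat.prime_two).1 (hℓ.dvd_of_dvd_pow h4))

variable {p : ℕ} [NeZero p] {ℓ : ℕ} {A : ValuationSubring Kbar}

/-- A **meter** at `A`: integral `q`-expansion, poles at places with integral `j`-value, zero at the cusp `0`,
unit value at `∞`. -/
structure IsMeter (A : ValuationSubring Kbar) (p : ℕ) [NeZero p] (f : FN p) : Prop where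
  int : ∃ z : LaurentSeries ↥A, (f : LaurentSeries Kbar) = incl A z
  pol : ∀ Q : Place Kbar (FN p), Q.ord f < 0 → jF p ∈ Q.toValuationSubring ∧ ev Q (jF p) ∈ A
  zz : 0 < (zz p).ord f
  oo : A.valuation (ev (oo p) f) = 1

/-- **T1'.** (`with_red`, `near_of_meter`; `heckeAlphaBar Kbar p c f ∈ O` by `redFN_incl` and `coe_heckeAlphaBar`.) -/
theorem near_of_meter' (hp : p.Prime) (hℓ : ℓ.Prime) (hℓp : ℓ ≠ p) (hA : A.LiesOverPrime ℓ)
    {f : FN p} (hf : IsMeter A p f) {x : Place Kbar (FN p)} {a b : Kbar} (hx : IsPt p x a b)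
    (ha : a ∉ A) :
    ev x f ∈ A ∧ (A.valuation (ev x f) = 1 → NearInf A p a b) ∧
      (A.valuation (ev x f) < 1 → NearZero A p a b) := by
  have hℓp' : ¬ ℓ ∣ p := fun h => hℓp ((Nat.prime_dvd_prime_iff_eq hℓ hp).1 h)
  refine with_red p hℓ hℓp' A hA ?_
  intro c _ _ hM _ r hr
  obtain ⟨z, hz⟩ := hf.int
  refine near_of_meter hp hr ?_ hf.pol hf.zz hf.oo hx ha
  exact (redFN_incl hM _ z (by rw [coe_heckeAlphaBar]; exact hz)).1

/-- **T4'.** -/
theorem unique_nearInf' (hp : p.Prime) (hℓ : ℓ.Prime) (hℓp : ℓ ≠ p) (hA : A.LiesOverPrime ℓ)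
    {x y : Place Kbar (FN p)} {a b b' : Kbar} (hx : IsPt p x a b) (hy : IsPt p y a b')
    (h : NearInf A p a b) (h' : NearInf A p a b') : x = y := by
  have hℓp' : ¬ ℓ ∣ p := fun h => hℓp ((Nat.prime_dvd_prime_iff_eq hℓ hp).1 h)
  refine with_red p hℓ hℓp' A hA ?_
  intro c _ _ hM _ r hr
  exact unique_nearInf hp hr hx hy h h'

/-! ## Galois -/

/-- rational coefficients: `Subtype.ext`, `coe_arithmeticGalois_smul`, `coeffEmb` (see `S36R/AA/LiftMain.galois_smul_jF`). -/
theorem gal_smul_jF (σ : GQ) : gal p σ • jF p = jF p := by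
  apply Subtype.ext
  unfold gal
  rw [coe_arithmeticGalois_smul]
  exact coeffMap_coeffEmb σ jq

theorem gal_smul_jp (σ : GQ) : gal p σ • jp p = jp p := by
  apply Subtype.ext
  unfold gal
  rw [coe_arithmeticGalois_smul]
  exact coeffMap_coeffEmb σ (qExpand ℚ p jq)

/-- `SemilinearAut.smul_algebraMap`; `baseAut (arithmeticGalois _ σ) = σ`. -/
theorem gal_smul_algebraMap (σ : GQ) (a : Kbar) :
    gal p σ • algebraMap Kbar (FN p) a = algebraMap Kbar (FN p) (σ a) := by
  unfold gal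
  rw [SemilinearAut.smul_algebraMap, baseAut_arithmeticGalois]
  rfl

/-- `SemilinearAut.ord_smul`, `smul_sub`. -/
theorem isPt_smul {x : Place Kbar (FN p)} {a b : Kbar} (hx : IsPt p x a b) (σ : GQ) :
    IsPt p (gal p σ • x) (σ a) (σ b) := by
  refine ⟨?_, ?_⟩
  · have h := SemilinearAut.ord_smul (gal p σ) x (jF p - algebraMap Kbar (FN p) a)
    rw [smul_sub, gal_smul_jF, gal_smul_algebraMap] at h
    rw [h]
    exact hx.ha
  · have h := SemilinearAut.ord_smul (gal p σ) x
      (FNAdjoin.jd p p dvd_rfl - algebraMap Kbar (FN p) b)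
    rw [smul_sub, gal_smul_algebraMap] at h
    have h2 : gal p σ • FNAdjoin.jd p p dvd_rfl = FNAdjoin.jd p p dvd_rfl := gal_smul_jp σ
    rw [h2] at h
    rw [h]
    exact hx.hb

/-- `ev_eq_iff` + `SemilinearAut.ord_smul` (if `f` has a pole at `x` both sides are `0`). -/
theorem ev_gal_smul (σ : GQ) (x : Place Kbar (FN p)) (f : FN p) :
    ev (gal p σ • x) (gal p σ • f) = σ (ev x f) := by
  by_cases hf : f ∈ x.toValuationSubring
  · have hgf : gal p σ • f ∈ (gal p σ • x).toValuationSubring :=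
      ValuationSubring.smul_mem_pointwise_smul (gal p σ) f x.toValuationSubring hf
    rw [ev_eq_iff (gal p σ • x) hgf]
    rcases ord_sub_ev_pos x hf with h | h
    · left
      have h2 : gal p σ • f = gal p σ • algebraMap Kbar (FN p) (ev x f) :=
        congrArg (fun y => gal p σ • y) h
      rw [gal_smul_algebraMap] at h2
      exact h2
    · right
      rw [← gal_smul_algebraMap, ← smul_sub, SemilinearAut.ord_smul]
      exact h
  · have h1 : x.ord f < 0 := by
      by_contra hcon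
      exact hf ((mem_iff_ord x f).mpr (Or.inr (not_lt.mp hcon)))
    rw [ev_eq_zero_of_ord_neg x h1, map_zero]
    apply ev_eq_zero_of_ord_neg
    rw [SemilinearAut.ord_smul]
    exact h1

/-- **Fixedness** (helper92's (S2)). -/
theorem fixed_of_meter (hp : p.Prime) (hℓ : ℓ.Prime) (hℓp : ℓ ≠ p) (hA : A.LiesOverPrime ℓ)
    {f : FN p} (hf : IsMeter A p f) (hfσ : ∀ σ : GQ, gal p σ • f = f)
    {x : Place Kbar (FN p)} {a b : Kbar} (hx : IsPt p x a b) (ha : a ∉ A)
    (haσ : ∀ σ : GQ, σ a = a) (hvσ : ∀ σ : GQ, σ (ev x f) = ev x f)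
    (hv : A.valuation (ev x f) = 1) (σ : GQ) : gal p σ • x = x := by
  have h1 := (near_of_meter' hp hℓ hℓp hA hf hx ha).2.1 hv
  have hy := isPt_smul hx σ
  rw [haσ σ] at hy
  have h2 : ev (gal p σ • x) f = ev x f := by
    have := ev_gal_smul σ x f
    rw [hfσ σ, hvσ σ] at this
    exact this
  have h3 := (near_of_meter' hp hℓ hℓp hA hf hy ha).2.1 (by rw [h2]; exact hv)
  exact (unique_nearInf' hp hℓ hℓp hA hx hy h1 h3).symm

end Fermat.Agent.S15.Red
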