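import Fermat.Agent.S15.Red.Dual
import Fermat.Agent.S37.BetaDeg

/-!
# S15 / RED: the Hecke correspondence `T_q` preserves the `A`-adic discs around the two cusps of `X₀(p)`

* `near_or` : dichotomy `NearInf ∨ NearZero` for a point with non integral `j`;
* `hecke_nearZero`, `hecke_nearInf`, `hecke_zz`, `hecke_oo` : pointwise statements on `FN (p * q)`;
* `DiscZ`, `DiscI`, `heckeDiv_mem_DiscZ`, `heckeDiv_mem_DiscI`, `heckeDiv_zz`, `heckeDiv_oo`,
  `Rdiv_of_mem_DiscZ`, `Rdiv_of_mem_DiscI` : statements on divisors.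
-/

set_option autoImplicit false
set_option linter.unusedSectionVars false

noncomputable section

namespace Fermat.Agent.S15.Red

open AlgebraicCurve ModularCurve Fermat.Agent.Lib.RR Fermat.Agent.GAL Fermat.Agent.GAL.RED
  Fermat.Agent.GAL.Hecke Fermat.Agent.GAL.Igusa Fermat.Agent.S24 Fermat.Agent.S19
  Fermat.Agent.S19.Weil Fermat.Agent.S37 Fermat.Agent.S17.Unr

/-! ## (H0) the dichotomy -/

theorem near_or_aux {p c : ℕ} [NeZero p] [NeZero c] {A : ValuationSubring Kbar}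
    [IsAlgClosed (IsLocalRing.ResidueField ↥A)]
    [Lib.RR.IsFF (IsLocalRing.ResidueField ↥A) (E (IsLocalRing.ResidueField ↥A) (p * c))]
    {hM : ((p * c : ℕ) : IsLocalRing.ResidueField ↥A) ≠ 0}
    {r : Place Kbar (FN (p * c)) →
      Place (IsLocalRing.ResidueField ↥A) (E (IsLocalRing.ResidueField ↥A) (p * c))}
    (hp : p.Prime) (hr : IsRedMap (redFN A (p * c) hM) r)
    {x : Place Kbar (FN p)} {a b : Kbar} (hx : IsPt p x a b) (ha : a ∉ A) :
    NearInf A p a b ∨ NearZero A p a b := by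
  have C := cd p c A hM hp
  have hpol : ∀ Q : Place Kbar (FN p), Q.ord (jp p / jF p ^ p) < 0 →
      jF p ∈ Q.toValuationSubring ∧ ev Q (jF p) ∈ A := by
    intro Q hQ
    have := C.f0_polesInt Q hQ
    rwa [redFN_A] at this
  obtain ⟨h1, h2, h3⟩ := near_of_meter hp hr (f := jp p / jF p ^ p) C.f0_mem hpol C.f0_ord_zz
    (by rw [C.ev_oo, map_one]) hx ha
  rcases ((A.valuation_le_one_iff _).2 h1).lt_or_eq with h | h
  · exact Or.inr (h3 h)
  · exact Or.inl (h2 h)

variable {p : ℕ} [NeZero p] {ℓ : ℕ} {A : ValuationSubring Kbar}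

/-- **(H0)** -/
theorem near_or (hp : p.Prime) (hℓ : ℓ.Prime) (hℓp : ℓ ≠ p) (hA : A.LiesOverPrime ℓ)
    {x : Place Kbar (FN p)} {a b : Kbar} (hx : IsPt p x a b) (ha : a ∉ A) :
    NearInf A p a b ∨ NearZero A p a b := by
  have hℓp' : ¬ ℓ ∣ p := fun h => hℓp ((Nat.prime_dvd_prime_iff_eq hℓ hp).1 h)
  refine with_red p hℓ hℓp' A hA ?_
  intro c _ _ hM _ r hr
  exact near_or_aux hp hr hx ha

/-- `←`: `ev_jF_mem_of_ev_jp_mem` + `isPt_ev`; `→`: the same for the dual place (`exists_dual`). -/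
theorem isPt_mem_iff (hp : p.Prime) (A : ValuationSubring Kbar) {x : Place Kbar (FN p)} {a b : Kbar}
    (hx : IsPt p x a b) : a ∈ A ↔ b ∈ A := by
  have key : ∀ {x : Place Kbar (FN p)} {a b : Kbar}, IsPt p x a b → b ∈ A → a ∈ A := by
    intro x a b hx hb
    obtain ⟨h1, h2, h3⟩ := isPt_ev hx
    have h4 : jp p ∈ x.toValuationSubring := by
      have h5 : jp p - algebraMap Kbar (FN p) b ∈ x.toValuationSubring :=
        (mem_iff_ord x _).2 (Or.inr hx.hb.le)
      have := add_mem h5 (Ev_algebraMap_mem x b)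
      rwa [sub_add_cancel] at this
    have := (ev_jF_mem_of_ev_jp_mem p hp A x h4 (by rw [h3]; exact hb)).2
    rwa [h2] at this
  obtain ⟨D, hD, -⟩ := exists_dual hp
  exact ⟨fun h => key (hD x a b hx) h, key hx⟩

/-- a place where `j` is regular is a point.  (`a := ev x j`, `b := ev x jp`; `ord_sub_ev_pos`; `jF p`, `jp p` are not constant:
they have a pole at `oo p`; `jp p` is regular by `cuspFacts.pole_jp`, `oo_j`, `zz_j`.) -/
theorem exists_isPt (hp : p.Prime) {x : Place Kbar (FN p)} (hx : 0 ≤ x.ord (jF p)) :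
    ∃ a b : Kbar, IsPt p x a b := by
  have C := cuspFacts p hp
  have hp0 : (0 : ℤ) < p := by exact_mod_cast hp.pos
  have hj : jF p ∈ x.toValuationSubring := (mem_iff_ord x _).2 (Or.inr hx)
  have hxp : 0 ≤ x.ord (jp p) := by
    by_contra hcon
    push Not at hcon
    rcases C.pole_jp x hcon with rfl | rfl
    · rw [C.oo_j] at hx
      omega
    · rw [C.zz_j] at hx
      omega
  have hjp : jp p ∈ x.toValuationSubring := (mem_iff_ord x _).2 (Or.inr hxp)
  refine ⟨ev x (jF p), ev x (jp p), ?_, ?_⟩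
  · rcases ord_sub_ev_pos x hj with h | h
    · exfalso
      have h1 := C.oo_j
      rw [h, RED.ord_algebraMap] at h1
      omega
    · exact h
  · rcases ord_sub_ev_pos x hjp with h | h
    · exfalso
      have h1 := C.oo_jp
      rw [h, RED.ord_algebraMap] at h1
      omega
    · exact h

/-- `cuspFacts`. -/
theorem ord_jp_neg_iff (hp : p.Prime) (x : Place Kbar (FN p)) :
    x.ord (jp p) < 0 ↔ x.ord (jF p) < 0 := by
  have C := cuspFacts p hp
  have hp0 : (0 : ℤ) < p := by exact_mod_cast hp.pos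
  constructor
  · intro h
    rcases C.pole_jp x h with rfl | rfl
    · rw [C.oo_j]
      omega
    · rw [C.zz_j]
      omega
  · intro h
    rcases C.pole_j x h with rfl | rfl
    · rw [C.oo_jp]
      omega
    · rw [C.zz_jp]
      omega

/-- `cuspFacts`. -/
theorem ord_dich (hp : p.Prime) {x : Place Kbar (FN p)} (hx : x.ord (jF p) < 0) :
    (x = oo p ∧ x.ord (jp p) = p * x.ord (jF p)) ∨ (x = zz p ∧ p * x.ord (jp p) = x.ord (jF p)) := by
  have C := cuspFacts p hp
  rcases C.pole_j x hx with rfl | rfl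
  · left
    refine ⟨rfl, ?_⟩
    rw [C.oo_jp, C.oo_j]
    ring
  · right
    refine ⟨rfl, ?_⟩
    rw [C.zz_jp, C.zz_j]
    ring

/-! ## restriction along an embedding -/

section Restr

variable {F' : Type*} [Field F'] [Algebra Kbar F'] (ι : FN p →ₐ[Kbar] F')
  (hι : ι.toRingHom.IsIntegral) (y : Place Kbar F')

include hι in
/-- as `ev_restrictAlong_ram_pos`. -/
theorem ram_pos : (0 : ℤ) < (Place.ramificationIndexAlong ι y : ℤ) := by
  let _ := algebraAlong ι
  have := isScalarTower_along ι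
  have := isIntegral_along ι hι
  exact_mod_cast y.ramificationIndex_pos (F := FN p)

theorem ord_restr_pos_iff (f : FN p) : 0 < (y.restrictAlong ι hι).ord f ↔ 0 < y.ord (ι f) := by
  rw [Place.ord_restrictAlong ι hι y f]
  have h := ram_pos ι hι y
  constructor
  · intro h1
    exact mul_pos h h1
  · intro h1
    exact (pos_iff_pos_of_mul_pos h1).1 h

theorem ord_restr_neg_iff (f : FN p) : (y.restrictAlong ι hι).ord f < 0 ↔ y.ord (ι f) < 0 := by
  rw [Place.ord_restrictAlong ι hι y f]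
  have h := ram_pos ι hι y
  constructor
  · intro h1
    exact mul_neg_of_pos_of_neg h h1
  · intro h1
    exact (pos_iff_neg_of_mul_neg h1).1 h

/-- `ord_restr_pos_iff`, `map_sub`, `AlgHom.commutes`. -/
theorem isPt_restr_iff (a b : Kbar) : IsPt p (y.restrictAlong ι hι) a b ↔
    0 < y.ord (ι (jF p) - algebraMap Kbar F' a) ∧ 0 < y.ord (ι (jp p) - algebraMap Kbar F' b) := by
  constructor
  · intro h
    refine ⟨?_, ?_⟩
    · have := (ord_restr_pos_iff ι hι y _).1 h.ha
      rwa [map_sub, AlgHom.commutes] at this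
    · have := (ord_restr_pos_iff ι hι y _).1 h.hb
      rwa [map_sub, AlgHom.commutes] at this
  · rintro ⟨h1, h2⟩
    refine ⟨?_, ?_⟩
    · rw [ord_restr_pos_iff, map_sub, AlgHom.commutes]
      exact h1
    · rw [ord_restr_pos_iff, map_sub, AlgHom.commutes]
      exact h2

/-- `ord_dich` + `Place.ord_restrictAlong`. -/
theorem ord_dich_restr (hp : p.Prime) (hy : y.ord (ι (jF p)) < 0) :
    (y.restrictAlong ι hι = oo p ∧ y.ord (ι (jp p)) = p * y.ord (ι (jF p))) ∨
      (y.restrictAlong ι hι = zz p ∧ p * y.ord (ι (jp p)) = y.ord (ι (jF p))) := by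
  have h0 := (ord_restr_neg_iff ι hι y (jF p)).2 hy
  rw [Place.ord_restrictAlong ι hι y (jp p), Place.ord_restrictAlong ι hι y (jF p)]
  rcases ord_dich hp h0 with ⟨h1, h2⟩ | ⟨h1, h2⟩
  · exact Or.inl ⟨h1, by rw [h2]; ring⟩
  · exact Or.inr ⟨h1, by rw [← h2]; ring⟩

end Restr

/-! ## combinatorics -/

theorem Hecke_comb_a {p q : ℕ} (hp : 2 ≤ p) (hq : 2 ≤ q) : p * q * p ≠ q := by
  intro h
  have h4 : 2 * 2 ≤ p * p := Nat.mul_le_mul hp hp
  have h5 : p * q * p = q * (p * p) := by ring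
  have h6 : q * (2 * 2) ≤ q * (p * p) := Nat.mul_le_mul_left q h4
  omega

theorem Hecke_comb_c {p q : ℕ} (hq : 2 ≤ q) : p * q * p * q ≠ 1 := by
  intro h
  have h1 : q ∣ 1 := ⟨p * q * p, by rw [← h]; ring⟩
  have := Nat.dvd_one.mp h1
  omega

theorem Hecke_comb_d {p : ℕ} (hp : 2 ≤ p) : p * p ≠ 1 := by
  intro h
  have h4 : 2 * 2 ≤ p * p := Nat.mul_le_mul hp hp
  omega

/-- **The combinatorial lemma.**  `V = |j|`, `Vp = |j_p|`, `Vq = |j_q|`, `Vpq = |j_pq|`.
PROOF (first part; suppose `Vp = V ^ p`): `P3a, P4a`: `V^(p*p*q) = V^q`; `P3a, P4b`: `V^(q*q) = V^(p*p)`;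
`P3b, P4a`: `V^(p*q*(p*q)) = V^1`; `P3b, P4b`: `V^(p*p) = V^1`.  Second part (suppose `Vp ^ p = V`), basis `Vp`. -/
theorem comb {Γ : Type*} [CommMonoid Γ] {p q : ℕ} (hp : 2 ≤ p) (hq : 2 ≤ q) (hpq : p ≠ q)
    {V Vp Vq Vpq : Γ} (hV : ∀ m n : ℕ, V ^ m = V ^ n → m = n) (hVp : ∀ m n : ℕ, Vp ^ m = Vp ^ n → m = n)
    (P1 : Vp = V ^ p ∨ Vp ^ p = V) (P3 : Vq = V ^ q ∨ Vq ^ q = V)
    (P4 : Vpq = Vp ^ q ∨ Vpq ^ q = Vp) :
    (Vpq ^ p = Vq → Vp ^ p = V) ∧ (Vpq = Vq ^ p → Vp = V ^ p) := by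
  constructor
  · intro H
    rcases P1 with h1 | h1
    · exfalso
      rcases P3 with h3 | h3 <;> rcases P4 with h4 | h4
      · -- Vpq = V^(p q), V^(p q p) = V^q
        rw [h4, h1, h3, ← pow_mul, ← pow_mul, ← mul_assoc] at H
        exact Hecke_comb_a hp hq (hV _ _ H)
      · have e : V ^ (q * q) = V ^ (p * p) := by
          calc V ^ (q * q) = (V ^ q) ^ q := pow_mul _ _ _
            _ = (Vpq ^ p) ^ q := by rw [H, h3]
            _ = (Vpq ^ q) ^ p := pow_right_comm _ _ _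
            _ = V ^ (p * p) := by rw [h4, h1, ← pow_mul]
        exact hpq (Nat.mul_self_inj.mp (hV _ _ e)).symm
      · have e : V ^ (p * q * p * q) = V ^ 1 := by
          calc V ^ (p * q * p * q) = (((V ^ p) ^ q) ^ p) ^ q := by
                rw [pow_mul, pow_mul, pow_mul]
            _ = V ^ 1 := by rw [← h1, ← h4, H, h3, pow_one]
        exact Hecke_comb_c hq (hV _ _ e)
      · have e : V ^ (p * p) = V ^ 1 := by
          calc V ^ (p * p) = (V ^ p) ^ p := pow_mul _ _ _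
            _ = (Vpq ^ q) ^ p := by rw [h4, h1]
            _ = (Vpq ^ p) ^ q := pow_right_comm _ _ _
            _ = V ^ 1 := by rw [H, h3, pow_one]
        exact Hecke_comb_d hp (hV _ _ e)
    · exact h1
  · intro H
    rcases P1 with h1 | h1
    · exact h1
    · exfalso
      rcases P3 with h3 | h3 <;> rcases P4 with h4 | h4
      · have e : Vp ^ (p * q * p) = Vp ^ q := by
          calc Vp ^ (p * q * p) = ((Vp ^ p) ^ q) ^ p := by rw [pow_mul, pow_mul]
            _ = Vp ^ q := by rw [h1, ← h3, ← H, h4]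
        exact Hecke_comb_a hp hq (hVp _ _ e)
      · have e : Vp ^ (p * q * p * q) = Vp ^ 1 := by
          calc Vp ^ (p * q * p * q) = (((Vp ^ p) ^ q) ^ p) ^ q := by
                rw [pow_mul, pow_mul, pow_mul]
            _ = Vp ^ 1 := by rw [h1, ← h3, ← H, h4, pow_one]
        exact Hecke_comb_c hq (hVp _ _ e)
      · have e : Vp ^ (q * q) = Vp ^ (p * p) := by
          calc Vp ^ (q * q) = (Vp ^ q) ^ q := pow_mul _ _ _
            _ = (Vq ^ p) ^ q := by rw [← h4, H]
            _ = (Vq ^ q) ^ p := pow_right_comm _ _ _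
            _ = Vp ^ (p * p) := by rw [h3, ← h1, ← pow_mul]
        exact hpq (Nat.mul_self_inj.mp (hVp _ _ e)).symm
      · have e : Vp ^ (p * p) = Vp ^ 1 := by
          calc Vp ^ (p * p) = (Vp ^ p) ^ p := pow_mul _ _ _
            _ = (Vq ^ q) ^ p := by rw [h3, h1]
            _ = (Vq ^ p) ^ q := pow_right_comm _ _ _
            _ = Vp ^ 1 := by rw [← H, h4, pow_one]
        exact Hecke_comb_d hp (hVp _ _ e)

theorem pow_inj_of_one_lt {Γ : Type*} [LinearOrderedCommGroupWithZero Γ] {x : Γ} (hx : 1 < x)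
    (m n : ℕ) (h : x ^ m = x ^ n) : m = n :=
  pow_right_injective₀ (lt_trans zero_lt_one hx) hx.ne' h

theorem pow_inj_ofAdd {n : ℤ} (hn : n ≠ 0) (m m' : ℕ)
    (h : Multiplicative.ofAdd n ^ m = Multiplicative.ofAdd n ^ m') : m = m' := by
  rw [← ofAdd_nsmul, ← ofAdd_nsmul] at h
  have h1 : m • n = m' • n := Multiplicative.ofAdd.injective h
  rw [nsmul_eq_mul, nsmul_eq_mul] at h1
  exact_mod_cast mul_right_cancel₀ hn h1

/-! ## four embeddings -/

section Quad

variable {q : ℕ} [NeZero q] {F' : Type*} [Field F'] [Algebra Kbar F']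
  {α β : FN p →ₐ[Kbar] F'} {α' β' : FN q →ₐ[Kbar] F'}
  (hα : α.toRingHom.IsIntegral) (hβ : β.toRingHom.IsIntegral)
  (hα' : α'.toRingHom.IsIntegral) (hβ' : β'.toRingHom.IsIntegral)
  (h1 : α' (jF q) = α (jF p)) (h2 : α' (jp q) = β (jF p))
  (h3 : β' (jF q) = α (jp p)) (h4 : β' (jp q) = β (jp p))

include hα' hβ' h1 h2 h3 h4

/-- the values at the four restrictions.
PROOF. `0 ≤ y.ord (β j) = y.ord (α' jp)`, so `0 ≤ y.ord (α' j) = y.ord (α j)` (`ord_jp_neg_iff` at level `q`, `ord_restr_neg_iff`),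
`exists_isPt` for `y.restrictAlong α`; then `isPt_restr_iff` four times. -/
theorem quad_values (hp : p.Prime) (hq : q.Prime) (y : Place Kbar F') {a b : Kbar}
    (hx : IsPt p (y.restrictAlong β hβ) a b) :
    ∃ a' b' : Kbar, IsPt p (y.restrictAlong α hα) a' b' ∧ IsPt q (y.restrictAlong α' hα') a' a ∧
      IsPt q (y.restrictAlong β' hβ') b' b := by
  have hx' := (isPt_restr_iff β hβ y a b).1 hx
  have e1 : ¬ (y.restrictAlong β hβ).ord (jF p) < 0 := by
    rcases (mem_iff_ord _ _).1 (isPt_ev hx).1 with h0 | h0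
    · rw [h0, Place.ord_zero]
      exact lt_irrefl 0
    · exact not_lt.2 h0
  have e2 : ¬ y.ord (α' (jp q)) < 0 := by
    rw [h2]
    exact fun h => e1 ((ord_restr_neg_iff β hβ y (jF p)).2 h)
  have e3 : ¬ (y.restrictAlong α' hα').ord (jF q) < 0 := fun h =>
    e2 ((ord_restr_neg_iff α' hα' y (jp q)).1 ((ord_jp_neg_iff hq _).2 h))
  have e4 : ¬ y.ord (α (jF p)) < 0 := by
    rw [← h1]
    exact fun h => e3 ((ord_restr_neg_iff α' hα' y (jF q)).2 h)
  have e5 : 0 ≤ (y.restrictAlong α hα).ord (jF p) :=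
    not_lt.1 fun h => e4 ((ord_restr_neg_iff α hα y (jF p)).1 h)
  obtain ⟨a', b', hab⟩ := exists_isPt hp e5
  have hab' := (isPt_restr_iff α hα y a' b').1 hab
  refine ⟨a', b', hab, (isPt_restr_iff α' hα' y a' a).2 ?_, (isPt_restr_iff β' hβ' y b' b).2 ?_⟩
  · rw [h1, h2]
    exact ⟨hab'.1, hx'.1⟩
  · rw [h3, h4]
    exact ⟨hab'.2, hx'.2⟩

/-- `quad_values`, `isPt_mem_iff`, `near_or` three times, `comb` in the value group of `A` (`pow_inj_of_one_lt`). -/
theorem quad_near (hp : p.Prime) (hq : q.Prime) (hpq : p ≠ q) (hℓ : ℓ.Prime) (hℓp : ℓ ≠ p)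
    (hℓq : ℓ ≠ q) (hA : A.LiesOverPrime ℓ) (y : Place Kbar F') {a b : Kbar}
    (hx : IsPt p (y.restrictAlong β hβ) a b) (ha : a ∉ A) :
    ∃ a' b' : Kbar, IsPt p (y.restrictAlong α hα) a' b' ∧
      (NearZero A p a b → NearZero A p a' b') ∧ (NearInf A p a b → NearInf A p a' b') := by
  obtain ⟨a', b', hP, hQ1, hQ2⟩ := quad_values hα hβ hα' hβ' h1 h2 h3 h4 hp hq y hx
  have ha' : a' ∉ A := fun h => ha ((isPt_mem_iff hq A hQ1).1 h)
  have hb' : b' ∉ A := fun h => ha' ((isPt_mem_iff hp A hP).2 h)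
  have hVa : 1 < A.valuation a' := not_le.1 fun h => ha' ((A.valuation_le_one_iff _).1 h)
  have hVb : 1 < A.valuation b' := not_le.1 fun h => hb' ((A.valuation_le_one_iff _).1 h)
  have P1 : A.valuation b' = A.valuation a' ^ p ∨ A.valuation b' ^ p = A.valuation a' :=
    (near_or hp hℓ hℓp hA hP ha').imp (fun h => h.2) (fun h => h.2)
  have P3 : A.valuation a = A.valuation a' ^ q ∨ A.valuation a ^ q = A.valuation a' :=
    (near_or hq hℓ hℓq hA hQ1 ha').imp (fun h => h.2) (fun h => h.2)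
  have P4 : A.valuation b = A.valuation b' ^ q ∨ A.valuation b ^ q = A.valuation b' :=
    (near_or hq hℓ hℓq hA hQ2 hb').imp (fun h => h.2) (fun h => h.2)
  obtain ⟨c1, c2⟩ := comb hp.two_le hq.two_le hpq (pow_inj_of_one_lt hVa) (pow_inj_of_one_lt hVb)
    P1 P3 P4
  exact ⟨a', b', hP, fun h => ⟨ha', c1 h.2⟩, fun h => ⟨ha', c2 h.2⟩⟩

omit hα' hβ' h1 h2 h3 h4 in
theorem Hecke_ofAdd_eq_pow (a b : ℤ) (n : ℕ) :
    Multiplicative.ofAdd a = Multiplicative.ofAdd b ^ n ↔ a = n * b := by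
  rw [← ofAdd_nsmul, nsmul_eq_mul]
  exact Multiplicative.ofAdd.injective.eq_iff

omit hα' hβ' h1 h2 h3 h4 in
theorem Hecke_ofAdd_pow_eq (a b : ℤ) (n : ℕ) :
    Multiplicative.ofAdd a ^ n = Multiplicative.ofAdd b ↔ n * a = b := by
  rw [← ofAdd_nsmul, nsmul_eq_mul]
  exact Multiplicative.ofAdd.injective.eq_iff

/-- `ord_dich_restr` four times, `comb` in `Multiplicative ℤ` (`pow_inj_ofAdd`). -/
theorem quad_cusp (hp : p.Prime) (hq : q.Prime) (hpq : p ≠ q) (y : Place Kbar F') :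
    (y.restrictAlong β hβ = zz p → y.restrictAlong α hα = zz p) ∧
      (y.restrictAlong β hβ = oo p → y.restrictAlong α hα = oo p) := by
  have C := cuspFacts p hp
  have hp2 : (2 : ℤ) ≤ (p : ℤ) := by exact_mod_cast hp.two_le
  have key : y.ord (β (jF p)) < 0 →
      ((p : ℤ) * y.ord (β (jp p)) = y.ord (β (jF p)) → y.restrictAlong α hα = zz p) ∧
      (y.ord (β (jp p)) = (p : ℤ) * y.ord (β (jF p)) → y.restrictAlong α hα = oo p) := by
    intro hneg
    have n1 : y.ord (α (jF p)) < 0 := by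
      rw [← h1, ← ord_restr_neg_iff α' hα' y, ← ord_jp_neg_iff hq, ord_restr_neg_iff α' hα' y, h2]
      exact hneg
    have n2 : y.ord (α (jp p)) < 0 := by
      rw [← ord_restr_neg_iff α hα y, ord_jp_neg_iff hp, ord_restr_neg_iff α hα y]
      exact n1
    have P1 := ord_dich_restr α hα y hp n1
    have P3 := ord_dich_restr α' hα' y hq (by rw [h1]; exact n1)
    have P4 := ord_dich_restr β' hβ' y hq (by rw [h3]; exact n2)
    rw [h1, h2] at P3
    rw [h3, h4] at P4
    have hc := comb (Γ := Multiplicative ℤ) hp.two_le hq.two_le hpq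
      (V := Multiplicative.ofAdd (y.ord (α (jF p))))
      (Vp := Multiplicative.ofAdd (y.ord (α (jp p))))
      (Vq := Multiplicative.ofAdd (y.ord (β (jF p))))
      (Vpq := Multiplicative.ofAdd (y.ord (β (jp p))))
      (pow_inj_ofAdd n1.ne) (pow_inj_ofAdd n2.ne)
      (by
        rw [Hecke_ofAdd_eq_pow, Hecke_ofAdd_pow_eq]
        exact P1.imp And.right And.right)
      (by
        rw [Hecke_ofAdd_eq_pow, Hecke_ofAdd_pow_eq]
        exact P3.imp And.right And.right)
      (by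
        rw [Hecke_ofAdd_eq_pow, Hecke_ofAdd_pow_eq]
        exact P4.imp And.right And.right)
    rw [Hecke_ofAdd_eq_pow, Hecke_ofAdd_pow_eq, Hecke_ofAdd_eq_pow, Hecke_ofAdd_pow_eq] at hc
    constructor
    · intro h
      have h5 := hc.1 h
      rcases P1 with ⟨-, h6⟩ | ⟨h6, -⟩
      · exfalso
        rw [h6] at h5
        nlinarith
      · exact h6
    · intro h
      have h5 := hc.2 h
      rcases P1 with ⟨h6, -⟩ | ⟨-, h6⟩
      · exact h6
      · exfalso
        rw [h5] at h6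
        nlinarith
  have hram := ram_pos β hβ y
  constructor
  · intro h
    have e1 := Place.ord_restrictAlong β hβ y (jF p)
    have e2 := Place.ord_restrictAlong β hβ y (jp p)
    rw [h, C.zz_j] at e1
    rw [h, C.zz_jp] at e2
    refine (key ?_).1 ?_
    · rw [e1]; nlinarith
    · rw [e1, e2]; ring
  · intro h
    have e1 := Place.ord_restrictAlong β hβ y (jF p)
    have e2 := Place.ord_restrictAlong β hβ y (jp p)
    rw [h, C.oo_j] at e1
    rw [h, C.oo_jp] at e2
    refine (key ?_).2 ?_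
    · rw [e1]; nlinarith
    · rw [e1, e2]; ring

end Quad

/-! ## the concrete embeddings -/

/-- identification of equal levels. -/
def lvlEq {M M' : ℕ} (h : M = M') : FN M ≃ₐ[Kbar] FN M' := h ▸ AlgEquiv.refl

theorem coe_lvlEq {M M' : ℕ} (h : M = M') (f : FN M) :
    ((lvlEq h f : FN M') : LaurentSeries Kbar) = (f : LaurentSeries Kbar) := by
  subst h
  rfl

variable (p) (q : ℕ) [NeZero q]

/-- `FN q → FN (p * q)`, `f(q) ↦ f(q)`. -/
def alphaT : FN q →ₐ[Kbar] FN (p * q) :=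
  (lvlEq (mul_comm q p)).toAlgHom.comp (heckeAlphaBar Kbar q p)

/-- `FN q → FN (p * q)`, `f(q) ↦ f(q^p)`. -/
def betaT : FN q →ₐ[Kbar] FN (p * q) :=
  (lvlEq (mul_comm q p)).toAlgHom.comp (heckeBetaBar Kbar q p)

omit [NeZero p] [NeZero q] in
theorem Hecke_integral_lvlEq_comp {M M' : ℕ} (h : M = M') {F₀ : Type*} [Field F₀] [Algebra Kbar F₀]
    (f : F₀ →ₐ[Kbar] FN M) (hf : f.toRingHom.IsIntegral) :
    ((lvlEq h).toAlgHom.comp f).toRingHom.IsIntegral := by
  subst h
  exact hf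

/-- generalise `mul_comm q p : q * p = M'` and `subst`; `integral_alpha q p`. -/
theorem integral_alphaT : (alphaT p q).toRingHom.IsIntegral :=
  Hecke_integral_lvlEq_comp _ _ (integral_alpha q p)

theorem integral_betaT : (betaT p q).toRingHom.IsIntegral :=
  Hecke_integral_lvlEq_comp _ _ (integral_beta q p)

/-- `Subtype.ext`, `coe_lvlEq`, `coe_heckeAlphaBar`, `coe_heckeBetaBar`, `FNAdjoin.coe_jd'`, `qExpand_qExpand`, `qExpand_congr`
(compare `AtkinLehner.alpha_jd`, `AtkinLehner.beta_jd`). -/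
theorem alphaT_jF : alphaT p q (jF q) = heckeAlphaBar Kbar p q (jF p) := by
  apply Subtype.ext
  show ((lvlEq (mul_comm q p) (heckeAlphaBar Kbar q p (jF q)) : FN (p * q)) :
    LaurentSeries Kbar) = _
  rw [coe_lvlEq, coe_heckeAlphaBar, coe_heckeAlphaBar]
  rfl

theorem alphaT_jp : alphaT p q (jp q) = heckeBetaBar Kbar p q (jF p) := by
  apply Subtype.ext
  show ((lvlEq (mul_comm q p) (heckeAlphaBar Kbar q p (jp q)) : FN (p * q)) :
    LaurentSeries Kbar) = _
  rw [coe_lvlEq, coe_heckeAlphaBar, coe_heckeBetaBar, FNAdjoin.coe_jd']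
  rfl

theorem betaT_jF : betaT p q (jF q) = heckeAlphaBar Kbar p q (jp p) := by
  apply Subtype.ext
  show ((lvlEq (mul_comm q p) (heckeBetaBar Kbar q p (jF q)) : FN (p * q)) :
    LaurentSeries Kbar) = _
  rw [coe_lvlEq, coe_heckeAlphaBar, coe_heckeBetaBar, FNAdjoin.coe_jd']
  rfl

theorem betaT_jp : betaT p q (jp q) = heckeBetaBar Kbar p q (jp p) := by
  apply Subtype.ext
  show ((lvlEq (mul_comm q p) (heckeBetaBar Kbar q p (jp q)) : FN (p * q)) :
    LaurentSeries Kbar) = _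
  rw [coe_lvlEq, coe_heckeBetaBar, coe_heckeBetaBar, FNAdjoin.coe_jd', FNAdjoin.coe_jd',
    qExpand_qExpand, qExpand_qExpand]
  exact qExpand_congr (mul_comm p q) _

variable {p q}

/-- **(H1), (H2)** -/
theorem hecke_near (hp : p.Prime) (hq : q.Prime) (hpq : p ≠ q) (hℓ : ℓ.Prime) (hℓp : ℓ ≠ p)
    (hℓq : ℓ ≠ q) (hA : A.LiesOverPrime ℓ) (y : Place Kbar (FN (p * q))) {a b : Kbar}
    (hx : IsPt p (y.restrictAlong (heckeBetaBar Kbar p q) (integral_beta p q)) a b) (ha : a ∉ A) :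
    ∃ a' b' : Kbar, IsPt p (y.restrictAlong (heckeAlphaBar Kbar p q) (integral_alpha p q)) a' b' ∧
      (NearZero A p a b → NearZero A p a' b') ∧ (NearInf A p a b → NearInf A p a' b') :=
  quad_near (integral_alpha p q) (integral_beta p q) (integral_alphaT p q) (integral_betaT p q)
    (alphaT_jF p q) (alphaT_jp p q) (betaT_jF p q) (betaT_jp p q) hp hq hpq hℓ hℓp hℓq hA y hx ha

/-- **(H3)** -/
theorem hecke_cusp (hp : p.Prime) (hq : q.Prime) (hpq : p ≠ q) (y : Place Kbar (FN (p * q))) :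
    (y.restrictAlong (heckeBetaBar Kbar p q) (integral_beta p q) = zz p →
        y.restrictAlong (heckeAlphaBar Kbar p q) (integral_alpha p q) = zz p) ∧
      (y.restrictAlong (heckeBetaBar Kbar p q) (integral_beta p q) = oo p →
        y.restrictAlong (heckeAlphaBar Kbar p q) (integral_alpha p q) = oo p) :=
  quad_cusp (integral_alpha p q) (integral_beta p q) (integral_alphaT p q) (integral_betaT p q)
    (alphaT_jF p q) (alphaT_jp p q) (betaT_jF p q) (betaT_jp p q) hp hq hpq y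

/-! ## (H4) divisors -/

/-- divisors supported on a set of places. -/
def SuppOn (S : Set (Place Kbar (FN p))) : AddSubgroup (Divisor Kbar (FN p)) where
  carrier := {D | ∀ x, D x ≠ 0 → x ∈ S}
  zero_mem' := fun x hx => absurd rfl hx
  add_mem' := by
    intro D D' h h' x hx
    by_cases h0 : D x = 0
    · refine h' x fun h1 => hx ?_
      rw [Finsupp.add_apply, h0, h1, add_zero]
    · exact h x h0
  neg_mem' := by
    intro D h x hx
    refine h x fun h1 => hx ?_
    rw [Finsupp.neg_apply, h1, neg_zero]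

/-- the disc around the cusp `0`. -/
def setZ (A : ValuationSubring Kbar) (p : ℕ) [NeZero p] : Set (Place Kbar (FN p)) := {x | x = zz p ∨ ∃ a b, IsPt p x a b ∧ NearZero A p a b}

/-- the disc around the cusp `∞`. -/
def setI (A : ValuationSubring Kbar) (p : ℕ) [NeZero p] : Set (Place Kbar (FN p)) := {x | x = oo p ∨ ∃ a b, IsPt p x a b ∧ NearInf A p a b}

abbrev DiscZ (A : ValuationSubring Kbar) (p : ℕ) [NeZero p] : AddSubgroup (Divisor Kbar (FN p)) :=
  SuppOn (setZ A p)

abbrev DiscI (A : ValuationSubring Kbar) (p : ℕ) [NeZero p] : AddSubgroup (Divisor Kbar (FN p)) :=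
  SuppOn (setI A p)

/-- a place in the support of `ψ_* φ^* D` is the restriction along `ψ` of a place whose restriction along `φ` is in the support
of `D`. -/
theorem Hecke_exists_of_corr_apply_ne_zero {K F F' : Type*} [Field K] [Field F] [Field F']
    [Algebra K F] [Algebra K F'] [HasPrincipalDivisors K F'] (φ ψ : F →ₐ[K] F')
    (hφ : φ.toRingHom.IsIntegral) (hψ : ψ.toRingHom.IsIntegral) (D : Divisor K F) (x : Place K F)
    (hx : Divisor.pushforwardAlong ψ hψ (Divisor.pullbackAlong φ hφ D) x ≠ 0) :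
    ∃ W : Place K F', W.restrictAlong ψ hψ = x ∧ D (W.restrictAlong φ hφ) ≠ 0 := by
  classical
  set D' := Divisor.pullbackAlong φ hφ D with hD'
  have h1 : Divisor.pushforwardAlong ψ hψ D'
      = ∑ W ∈ D'.support, Divisor.pushforwardAlong ψ hψ (Finsupp.single W (D' W)) := by
    conv_lhs => rw [← Finsupp.sum_single D']
    rw [Finsupp.sum, map_sum]
  rw [h1, Finsupp.finsetSum_apply] at hx
  obtain ⟨W, hW, hne⟩ := Finset.exists_ne_zero_of_sum_ne_zero hx
  rw [Divisor.pushforwardAlong_single, Finsupp.single_apply] at hne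
  split_ifs at hne with hWx
  · refine ⟨W, hWx, fun h0 => ?_⟩
    have h2 := Finsupp.mem_support_iff.mp hW
    rw [hD', Divisor.pullbackAlong_apply, h0, mul_zero] at h2
    exact h2 rfl
  · exact absurd rfl hne

/-- abstract: a correspondence `α_* β^*` preserves `SuppOn S` if `y|β ∈ S → y|α ∈ S` for all places `y` upstairs.
(`heckeDiv_apply`; write `β^* D` as a sum of `single`s, `Divisor.pushforwardAlong_single`, `Divisor.pullbackAlong_apply`.) -/
theorem heckeDiv_mem_SuppOn {S : Set (Place Kbar (FN p))}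
    (h : ∀ y : Place Kbar (FN (p * q)),
      y.restrictAlong (heckeBetaBar Kbar p q) (integral_beta p q) ∈ S →
        y.restrictAlong (heckeAlphaBar Kbar p q) (integral_alpha p q) ∈ S)
    {D : Divisor Kbar (FN p)} (hD : D ∈ SuppOn S) : heckeDiv p q D ∈ SuppOn S := by
  intro x hx
  obtain ⟨W, hWx, hW⟩ := Hecke_exists_of_corr_apply_ne_zero (heckeBetaBar Kbar p q)
    (heckeAlphaBar Kbar p q) (integral_beta p q) (integral_alpha p q) D x hx
  rw [← hWx]
  exact h W (hD _ hW)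

theorem heckeDiv_mem_DiscZ (hp : p.Prime) (hq : q.Prime) (hpq : p ≠ q) (hℓ : ℓ.Prime) (hℓp : ℓ ≠ p)
    (hℓq : ℓ ≠ q) (hA : A.LiesOverPrime ℓ) {D : Divisor Kbar (FN p)} (hD : D ∈ DiscZ A p) :
    heckeDiv p q D ∈ DiscZ A p := by
  refine heckeDiv_mem_SuppOn ?_ hD
  rintro y (hy | ⟨a, b, hx, hn⟩)
  · exact Or.inl ((hecke_cusp hp hq hpq y).1 hy)
  · obtain ⟨a', b', h1, h2, -⟩ := hecke_near hp hq hpq hℓ hℓp hℓq hA y hx hn.1
    exact Or.inr ⟨a', b', h1, h2 hn⟩

theorem heckeDiv_mem_DiscI (hp : p.Prime) (hq : q.Prime) (hpq : p ≠ q) (hℓ : ℓ.Prime) (hℓp : ℓ ≠ p)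
    (hℓq : ℓ ≠ q) (hA : A.LiesOverPrime ℓ) {D : Divisor Kbar (FN p)} (hD : D ∈ DiscI A p) :
    heckeDiv p q D ∈ DiscI A p := by
  refine heckeDiv_mem_SuppOn ?_ hD
  rintro y (hy | ⟨a, b, hx, hn⟩)
  · exact Or.inl ((hecke_cusp hp hq hpq y).2 hy)
  · obtain ⟨a', b', h1, -, h2⟩ := hecke_near hp hq hpq hℓ hℓp hℓq hA y hx hn.1
    exact Or.inr ⟨a', b', h1, h2 hn⟩

/-- a divisor supported on one place. (`RED.degree_eq_sum`.) -/
theorem eq_degree_smul_single {z : Place Kbar (FN p)} {D : Divisor Kbar (FN p)}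
    (hD : D ∈ SuppOn ({z} : Set (Place Kbar (FN p)))) :
    D = Divisor.degree D • Finsupp.single z (1 : ℤ) := by
  have h1 : D = Finsupp.single z (D z) := by
    ext x
    by_cases hx : x = z
    · subst hx
      simp
    · rw [Finsupp.single_eq_of_ne hx]
      by_contra h0
      exact hx (hD x h0)
  have h2 : Divisor.degree D = D z := by
    rw [RED.degree_eq_sum]
    conv_lhs => rw [h1]
    rw [Finsupp.sum_single_index rfl]
  rw [h2, Finsupp.smul_single, smul_eq_mul, mul_one]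
  exact h1

theorem Hecke_single_mem_SuppOn (z : Place Kbar (FN p)) :
    Finsupp.single z (1 : ℤ) ∈ SuppOn ({z} : Set (Place Kbar (FN p))) := by
  intro x hx
  by_contra h
  rw [Finsupp.single_eq_of_ne (fun h' => h h')] at hx
  exact hx rfl

theorem Hecke_degree_single (z : Place Kbar (FN p)) :
    Divisor.degree (Finsupp.single z (1 : ℤ) : Divisor Kbar (FN p)) = 1 := by
  rw [RED.degree_eq_sum, Finsupp.sum_single_index rfl]

/-- `heckeDiv_mem_SuppOn` for `S = {zz p}` (`hecke_cusp`), `eq_degree_smul_single`, `S37.degree_heckeDiv`. -/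
theorem heckeDiv_zz (hp : p.Prime) (hq : q.Prime) (hpq : p ≠ q) :
    heckeDiv p q (Finsupp.single (zz p) 1) = ((q : ℤ) + 1) • Finsupp.single (zz p) (1 : ℤ) := by
  have hqp : ¬ q ∣ p := fun h => hpq ((Nat.prime_dvd_prime_iff_eq hq hp).1 h).symm
  have hmem : heckeDiv p q (Finsupp.single (zz p) 1) ∈
      SuppOn ({zz p} : Set (Place Kbar (FN p))) :=
    heckeDiv_mem_SuppOn (fun y hy => (hecke_cusp hp hq hpq y).1 hy) (Hecke_single_mem_SuppOn _)
  have h1 := eq_degree_smul_single hmem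
  rw [S37.degree_heckeDiv p q hq hqp, Hecke_degree_single, mul_one] at h1
  exact h1

theorem heckeDiv_oo (hp : p.Prime) (hq : q.Prime) (hpq : p ≠ q) :
    heckeDiv p q (Finsupp.single (oo p) 1) = ((q : ℤ) + 1) • Finsupp.single (oo p) (1 : ℤ) := by
  have hqp : ¬ q ∣ p := fun h => hpq ((Nat.prime_dvd_prime_iff_eq hq hp).1 h).symm
  have hmem : heckeDiv p q (Finsupp.single (oo p) 1) ∈
      SuppOn ({oo p} : Set (Place Kbar (FN p))) :=
    heckeDiv_mem_SuppOn (fun y hy => (hecke_cusp hp hq hpq y).2 hy) (Hecke_single_mem_SuppOn _)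
  have h1 := eq_degree_smul_single hmem
  rw [S37.degree_heckeDiv p q hq hqp, Hecke_degree_single, mul_one] at h1
  exact h1

section Rdiv

variable {c : ℕ} [NeZero c] [IsAlgClosed (IsLocalRing.ResidueField ↥A)]
    [Lib.RR.IsFF (IsLocalRing.ResidueField ↥A) (E (IsLocalRing.ResidueField ↥A) (p * c))]
    {hM : ((p * c : ℕ) : IsLocalRing.ResidueField ↥A) ≠ 0}
    {r : Place Kbar (FN (p * c)) →
      Place (IsLocalRing.ResidueField ↥A) (E (IsLocalRing.ResidueField ↥A) (p * c))}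

/-- `D = ∑ D x • single x 1` (`Finsupp.sum_single`), `map_sum`, `map_zsmul`, `Rdiv_of_nearZero`, `RED.degree_eq_sum`. -/
theorem Rdiv_of_mem_DiscZ (hp : p.Prime) (hr : IsRedMap (redFN A (p * c) hM) r)
    {D : Divisor Kbar (FN p)} (hD : D ∈ DiscZ A p) :
    Rdiv r D = Divisor.degree D • Rdiv r (Finsupp.single (zz p) 1) := by
  classical
  have h : ∀ x ∈ setZ A p, Rdiv r (Finsupp.single x 1) = Rdiv r (Finsupp.single (zz p) 1) := by
    rintro x (rfl | ⟨a, b, hx, hn⟩)
    · rfl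
    · exact Rdiv_of_nearZero hp hr hx hn
  rw [RED.degree_eq_sum]
  conv_lhs => rw [← Finsupp.sum_single D]
  rw [Finsupp.sum, map_sum, Finsupp.sum, Finset.sum_smul]
  refine Finset.sum_congr rfl fun x hx => ?_
  have hxS : x ∈ setZ A p := hD x (Finsupp.mem_support_iff.mp hx)
  have h1 : Finsupp.single x (D x) = D x • Finsupp.single x (1 : ℤ) := by
    rw [Finsupp.smul_single, smul_eq_mul, mul_one]
  rw [h1, map_zsmul, h x hxS]

theorem Rdiv_of_mem_DiscI (hp : p.Prime) (hr : IsRedMap (redFN A (p * c) hM) r)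
    {D : Divisor Kbar (FN p)} (hD : D ∈ DiscI A p) :
    Rdiv r D = Divisor.degree D • Rdiv r (Finsupp.single (oo p) 1) := by
  classical
  have h : ∀ x ∈ setI A p, Rdiv r (Finsupp.single x 1) = Rdiv r (Finsupp.single (oo p) 1) := by
    rintro x (rfl | ⟨a, b, hx, hn⟩)
    · rfl
    · exact Rdiv_of_nearInf hp hr hx hn
  rw [RED.degree_eq_sum]
  conv_lhs => rw [← Finsupp.sum_single D]
  rw [Finsupp.sum, map_sum, Finsupp.sum, Finset.sum_smul]
  refine Finset.sum_congr rfl fun x hx => ?_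
  have hxS : x ∈ setI A p := hD x (Finsupp.mem_support_iff.mp hx)
  have h1 : Finsupp.single x (D x) = D x • Finsupp.single x (1 : ℤ) := by
    rw [Finsupp.smul_single, smul_eq_mul, mul_one]
  rw [h1, map_zsmul, h x hxS]

end Rdiv

end Fermat.Agent.S15.Red
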