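import Fermat.Agent.S19.B.EvalRed
import Fermat.Agent.DR.Conc.Level
import Fermat.Agent.S37.AlongB
import Fermat.Agent.S37.AlongA

/-!
# S15 / RED (abstract part): points close to a cusp reduce to the cusp, with multiplicities

Block owner: helper58.

`F / K` ("level `M = N c`", neat) with reduction data `R`, reduction map `r` (`IsRedMap R r`).
`J : F` a Gauss unit without collision: `deg (J)_∞ = deg (J̄)_∞`.

* `A1 .. A4` : `r` commutes with `J`; evaluation of integral functions whose poles have integral `J`-value.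
* `F₀ / K` ("level `N`"), `α : F₀ → F`; `Rd = r_* ∘ α^*`.
* `B1 .. B3` : if `u ∈ F₀` has a simple zero at `c₀` and `u(x) = ε ∈ 𝔪_A`, and the places over `x` do not reduce to
  the reductions of the places over the other zeros of `u`, then `Rd x = Rd c₀`; uniqueness of `x`.
-/

set_option autoImplicit false
set_option linter.unusedSectionVars false

noncomputable section

namespace Fermat.Agent.S15.Red

open AlgebraicCurve Fermat.Agent.Lib.RR Fermat.Agent.GAL.RED Fermat.Agent.S19 Fermat.Agent.S19.Weil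
  Fermat.Agent.DR.Conc Fermat.Agent.S37

variable {K F k Fb : Type*} [Field K] [Field F] [Algebra K F] [Field k] [Field Fb] [Algebra k Fb]
  [IsFF K F] [IsAlgClosed K] [IsFF k Fb] [IsAlgClosed k]
  {R : RedData K F k Fb} {r : Place K F → Place k Fb}

/-- `J` is a Gauss unit and no zero of `J - a` (`a` integral) collides with a pole of `J` in the reduction. -/
structure NoColl (R : RedData K F k Fb) (J : F) : Prop where
  red_ne : R.red J ≠ 0
  deg : Divisor.degree (poleDiv (K := K) J) = Divisor.degree (poleDiv (K := k) (R.red J))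

/-- (A1) poles of `J` reduce to poles of `J̄`.
PROOF. `(Level_map_poleDiv hr hJ.red_ne hJ.deg).1`, evaluate at `r P`: `Disc_le_mapDomain_apply`
(all coefficients of `poleDiv` are `≥ 0`), `poleDiv_apply`. -/
theorem ord_red_neg (hr : IsRedMap R r) {J : F} (hJ : NoColl R J) {P : Place K F}
    (hP : P.ord J < 0) : (r P).ord (R.red J) < 0 := by
  have h1 := (Level_map_poleDiv hr hJ.red_ne hJ.deg).1
  have h2 := Disc_le_mapDomain_apply r (poleDiv (K := K) J) (r P)
    (fun a _ => by rw [poleDiv_apply]; exact le_max_right _ _) (a₀ := P) rfl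
  rw [h1, poleDiv_apply, poleDiv_apply] at h2
  have h3 : 0 < max (-(P.ord J)) 0 := lt_max_of_lt_left (by omega)
  have h4 : 0 < max (-((r P).ord (R.red J))) 0 := lt_of_lt_of_le h3 h2
  rcases lt_max_iff.1 h4 with h5 | h5
  · omega
  · exact absurd h5 (lt_irrefl _)

/-- `poleDiv (J - a) = poleDiv J`. -/
theorem poleDiv_sub_const (J : F) (a : K) :
    poleDiv (K := K) (J - algebraMap K F a) = poleDiv (K := K) J := by
  ext P
  rw [poleDiv_apply, poleDiv_apply]
  rcases lt_or_ge (P.ord J) 0 with hP | hP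
  · have hJ0 : J ≠ 0 := by
      rintro rfl
      rw [Place.ord_zero] at hP
      exact lt_irrefl _ hP
    by_cases ha : a = 0
    · rw [ha, map_zero, sub_zero]
    · have h2 : -algebraMap K F a ≠ 0 := by
        rw [Ne, neg_eq_zero, map_eq_zero]
        exact ha
      rw [sub_eq_add_neg, ord_add_eq_of_lt P hJ0 h2 (by rw [ord_neg, ord_algebraMap]; exact hP)]
  · have h1 : 0 ≤ P.ord (J - algebraMap K F a) := by
      by_cases hne : J - algebraMap K F a = 0
      · rw [hne, Place.ord_zero]
      · exact DiscParam_ord_sub_nonneg P a hP hne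
    rw [max_eq_right (by omega), max_eq_right (by omega)]

/-- (A2) places with integral `J`-value do not reduce to poles of `J̄`.
PROOF. `a := ev P J`, `y := J - a`.  `R.red y = R.red J - ā` (`R.red_sub`, `R.red_algebraMap`). If `R.red y = 0`,
`R.red J` is a constant: `ord ≥ 0`.  Otherwise `NoColl R y` (`poleDiv_sub_const` on both sides), so
`(Level_map_poleDiv hr _ _).2` at `r P`: `poleDiv y⁻¹ P > 0` (`ord_sub_ev_pos`; `y ≠ 0`), hence
`0 < (r P).ord (R.red y)`, and `R.red J = R.red y + ā`. -/
theorem ord_red_nonneg_of_ev_mem (hr : IsRedMap R r) {J : F} (hJ : NoColl R J) {P : Place K F}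
    (hP : J ∈ P.toValuationSubring) (ha : ev P J ∈ R.A) : 0 ≤ (r P).ord (R.red J) := by
  have hJO : J ∈ R.O := R.mem_of_red_ne_zero hJ.red_ne
  have haO : algebraMap K F (ev P J) ∈ R.O := R.algebraMap_mem _ ha
  have hred : R.red (J - algebraMap K F (ev P J)) =
      R.red J - algebraMap k Fb (R.redA (ev P J)) := by
    rw [R.red_sub hJO haO, R.red_algebraMap ha]
  by_cases h0 : R.red (J - algebraMap K F (ev P J)) = 0
  · rw [hred, sub_eq_zero] at h0
    rw [h0, ord_algebraMap]
  · have hN : NoColl R (J - algebraMap K F (ev P J)) :=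
      ⟨h0, by rw [poleDiv_sub_const, hred, poleDiv_sub_const]; exact hJ.deg⟩
    have h2 := (Level_map_poleDiv hr hN.red_ne hN.deg).2
    have hy0 : J - algebraMap K F (ev P J) ≠ 0 := by
      intro h
      rw [h, R.red_zero] at h0
      exact h0 rfl
    have h3 : 0 < P.ord (J - algebraMap K F (ev P J)) :=
      (ord_sub_ev_pos P hP).resolve_left (fun h => hy0 (sub_eq_zero.2 h))
    have h4 := Disc_le_mapDomain_apply r (poleDiv (K := K) (J - algebraMap K F (ev P J))⁻¹) (r P)
      (fun Q _ => Level_poleDiv_nonneg _ Q) (rfl : r P = r P)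
    rw [h2, poleDiv_apply, poleDiv_apply, Place.ord_inv, Place.ord_inv, neg_neg, neg_neg] at h4
    have h5 : 0 < (r P).ord (R.red (J - algebraMap K F (ev P J))) := by
      by_contra h
      rw [max_eq_right (not_lt.1 h), max_eq_left h3.le] at h4
      omega
    have h6 : R.red J = R.red (J - algebraMap K F (ev P J)) +
        algebraMap k Fb (R.redA (ev P J)) := by
      rw [hred]
      ring
    have h7 := min_le_ord_add (r P) (f := R.red (J - algebraMap K F (ev P J)))
      (g := algebraMap k Fb (R.redA (ev P J))) (by rw [← h6]; exact hJ.red_ne)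
    rw [ord_algebraMap, ← h6, min_eq_right h5.le] at h7
    exact h7

/-- (A3) a place with non integral `J`-value reduces to the reduction of a pole of `J`.
PROOF. By contradiction with `ev_red hr (EvalRed_poleDiv_nonneg J) (EvalRed_mem_L_poleDiv J)`. -/
theorem exists_pole_of_ev_not_mem (hr : IsRedMap R r) {J : F} (hJ : R.red J ≠ 0) {P : Place K F}
    (ha : ev P J ∉ R.A) : ∃ Z : Place K F, Z.ord J < 0 ∧ r Z = r P := by
  by_contra hcon
  push Not at hcon
  apply ha
  refine (ev_red hr (EvalRed_poleDiv_nonneg J) (EvalRed_mem_L_poleDiv J)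
    (R.mem_of_red_ne_zero hJ) (P := P) ?_).1
  intro Q hQ
  apply hcon Q
  rw [Finsupp.mem_support_iff, poleDiv_apply] at hQ
  by_contra h
  exact hQ (max_eq_right (by omega))

/-- the poles of `f` have integral `J`-value. -/
def PolesInt (R : RedData K F k Fb) (J f : F) : Prop :=
  ∀ Q : Place K F, Q.ord f < 0 → J ∈ Q.toValuationSubring ∧ ev Q J ∈ R.A

/-- (A4) PROOF. `ev_red` with `D = poleDiv f` at `Z`: for `Q` in the support, `Q.ord f < 0`, so
`0 ≤ (r Q).ord (R.red J)` by (A2) whereas `(r Z).ord (R.red J) < 0` by (A1). -/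
theorem ev_red_of_polesInt (hr : IsRedMap R r) {J : F} (hJ : NoColl R J) {f : F} (hf : f ∈ R.O)
    (hpol : PolesInt R J f) {P Z : Place K F} (hZ : Z.ord J < 0) (hPZ : r P = r Z) :
    ev P f ∈ R.A ∧ R.redA (ev P f) = ev (r Z) (R.red f) := by
  rw [← hPZ]
  refine ev_red hr (EvalRed_poleDiv_nonneg f) (EvalRed_mem_L_poleDiv f) hf (P := P) ?_
  intro Q hQ hQP
  have hQf : Q.ord f < 0 := by
    rw [Finsupp.mem_support_iff, poleDiv_apply] at hQ
    by_contra h
    exact hQ (max_eq_right (by omega))
  obtain ⟨h1, h2⟩ := hpol Q hQf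
  have h3 := ord_red_nonneg_of_ev_mem hr hJ h1 h2
  have h4 := ord_red_neg hr hJ hZ
  rw [hQP, hPZ] at h3
  omega

theorem ev_congr_of_polesInt (hr : IsRedMap R r) {J : F} (hJ : NoColl R J) {f : F} (hf : f ∈ R.O)
    (hpol : PolesInt R J f) {P Z : Place K F} (hZ : Z.ord J < 0) (hPZ : r P = r Z) :
    ev P f ∈ R.A ∧ ev Z f ∈ R.A ∧ R.redA (ev P f) = R.redA (ev Z f) := by
  obtain ⟨h1, h2⟩ := ev_red_of_polesInt hr hJ hf hpol hZ hPZ
  obtain ⟨h3, h4⟩ := ev_red_of_polesInt hr hJ hf hpol hZ (rfl : r Z = r Z)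
  exact ⟨h1, h3, h2.trans h4.symm⟩

/-! ### two levels -/

variable [CharZero K] {F₀ : Type*} [Field F₀] [Algebra K F₀] [IsFF K F₀]
  (α : F₀ →ₐ[K] F) (hα : α.toRingHom.IsIntegral)

/-- `r_* ∘ α^*`. -/
def Rd (r : Place K F → Place k Fb) : Divisor K F₀ →+ Divisor k Fb :=
  (Finsupp.mapDomain.addMonoidHom r).comp (Divisor.pullbackAlong α hα)

theorem Rd_apply (D : Divisor K F₀) :
    Rd α hα r D = Finsupp.mapDomain r (Divisor.pullbackAlong α hα D) := rfl

include hα in
theorem ev_restrictAlong_ram_pos (w : Place K F) : 0 < Place.ramificationIndexAlong α w := by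
  let _ := algebraAlong α
  have := isScalarTower_along α
  have := isIntegral_along α hα
  exact w.ramificationIndex_pos (F := F₀)

/-- `ev_eq_iff`, `Place.ord_restrictAlong`, `AlongB_mem_restrictAlong`. -/
theorem ev_restrictAlong (w : Place K F) (f : F₀) :
    ev w (α f) = ev (w.restrictAlong α hα) f := by
  have he : (0 : ℤ) < (Place.ramificationIndexAlong α w : ℤ) := by
    exact_mod_cast ev_restrictAlong_ram_pos α hα w
  by_cases hf : f ∈ (w.restrictAlong α hα).toValuationSubring
  · have hf' : α f ∈ w.toValuationSubring := (AlongB_mem_restrictAlong α hα w f).1 hf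
    rw [ev_eq_iff w hf']
    rcases ord_sub_ev_pos (w.restrictAlong α hα) hf with h | h
    · left
      conv_lhs => rw [h]
      exact α.commutes _
    · right
      rw [← α.commutes, ← map_sub, Place.ord_restrictAlong α hα]
      exact mul_pos he h
  · have h1 : (w.restrictAlong α hα).ord f < 0 := by
      by_contra h2
      exact hf ((mem_iff_ord _ f).2 (Or.inr (not_lt.1 h2)))
    rw [ev_eq_zero_of_ord_neg _ h1]
    apply ev_eq_zero_of_ord_neg
    rw [Place.ord_restrictAlong α hα]
    exact mul_neg_of_pos_of_neg he h1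

theorem Rd_nonneg {D : Divisor K F₀} (h : 0 ≤ D) : 0 ≤ Rd α hα r D :=
  mapDomain_nonneg r (pullbackAlong_nonneg α hα h)

theorem Rd_mono {D D' : Divisor K F₀} (h : D ≤ D') : Rd α hα r D ≤ Rd α hα r D' := by
  have h1 : D' = D + (D' - D) := by abel
  rw [h1, map_add]
  exact le_add_of_nonneg_right (Rd_nonneg α hα (sub_nonneg.mpr h))

/-- `degree_mapDomain`, `Divisor.degree_pullbackAlong`, `fundamentalIdentityAlong`. -/
theorem degree_Rd (hfin : FiniteAlong K α) (D : Divisor K F₀) :
    Divisor.degree (Rd α hα r D) = (finrankAlong K α : ℤ) * Divisor.degree D := by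
  rw [Rd_apply, Fermat.Agent.GAL.RED.degree_mapDomain,
    Divisor.degree_pullbackAlong α hα (fundamentalIdentityAlong α hα hfin)]

/-- `Rd (div u) = div (red (α u))`. -/
theorem Rd_divOf (hr : IsRedMap R r) (u : F₀) (hu : R.red (α u) ≠ 0) :
    Rd α hα r (divOf u) = divOf (R.red (α u)) := by
  rw [Rd_apply, pullbackAlong_divOf, hr.map_divOf _ hu]

/-- there is a place above `x`. (`degree_pullbackAlong`: the degree of `α^* x` is `finrank ≠ 0`, so
`α^* x ≠ 0`; `pullbackAlong_pt_apply_ne_zero`.) -/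
theorem exists_above (hfin : FiniteAlong K α) (x : Place K F₀) :
    ∃ w : Place K F, w.restrictAlong α hα = x := by
  have hpos : 0 < finrankAlong K α := by
    let _ := algebraAlong α
    have : Module.Finite F₀ F := hfin
    exact Module.finrank_pos
  have hdeg := Divisor.degree_pullbackAlong α hα (fundamentalIdentityAlong α hα hfin) (pt x)
  rw [degree_pt, Fermat.Agent.GAL.RED.deg_eq_one] at hdeg
  have hne : Divisor.pullbackAlong α hα (pt x) ≠ 0 := by
    intro h0
    rw [h0, map_zero] at hdeg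
    have : (0 : ℤ) < (finrankAlong K α : ℤ) := by exact_mod_cast hpos
    simp at hdeg
    omega
  obtain ⟨w, hw⟩ := Finsupp.ne_iff.1 hne
  exact ⟨w, pullbackAlong_pt_apply_ne_zero α hα x w hw⟩

/-- `Rd D` vanishes at `y` if no place over the support of `D` reduces to `y`. -/
theorem Rd_apply_eq_zero {D : Divisor K F₀} {y : Place k Fb}
    (h : ∀ w : Place K F, D (w.restrictAlong α hα) ≠ 0 → r w ≠ y) : Rd α hα r D y = 0 := by
  classical
  rw [Rd_apply, Disc_mapDomain_apply]
  refine Finset.sum_eq_zero fun w _ => ?_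
  split_ifs with hw
  · have h0 : D (w.restrictAlong α hα) = 0 := by
      by_contra hne
      exact h w hne hw
    rw [Divisor.pullbackAlong_apply, h0, mul_zero]
  · rfl

/-- (B0) the zero divisors of `u` and of `u - ε` have the same image under `Rd`.
PROOF. `Level_divOf_eq` for `u` and `u - ε`, `poleDiv_sub_const`, `Rd_divOf` twice,
`R.red (α u - ε) = R.red (α u)` (`R.red_sub`, `R.red_algebraMap`, `hε0`). -/
theorem Rd_zeroDiv_sub (hr : IsRedMap R r) {u : F₀} (hu : R.red (α u) ≠ 0) {ε : K} (hε : ε ∈ R.A)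
    (hε0 : R.redA ε = 0) :
    Rd α hα r (poleDiv (K := K) (u - algebraMap K F₀ ε)⁻¹) = Rd α hα r (poleDiv (K := K) u⁻¹) := by
  have hred : R.red (α (u - algebraMap K F₀ ε)) = R.red (α u) := by
    rw [map_sub, AlgHom.commutes, R.red_sub (R.mem_of_red_ne_zero hu) (R.algebraMap_mem _ hε),
      R.red_algebraMap hε, hε0, map_zero, sub_zero]
  have h1 : poleDiv (K := K) u⁻¹ = divOf (K := K) u + poleDiv (K := K) u := by
    rw [Level_divOf_eq]
    abel
  have h2 : poleDiv (K := K) (u - algebraMap K F₀ ε)⁻¹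
      = divOf (K := K) (u - algebraMap K F₀ ε) + poleDiv (K := K) u := by
    rw [Level_divOf_eq, poleDiv_sub_const]
    abel
  rw [h1, h2, map_add, map_add, Rd_divOf α hα hr u hu,
    Rd_divOf α hα hr (u - algebraMap K F₀ ε) (by rw [hred]; exact hu), hred]

/-- the separation hypothesis: places over `x` do not reduce like places over the zeros `≠ c₀` of `u`. -/
def Sep (r : Place K F → Place k Fb) (u : F₀) (x c₀ : Place K F₀) : Prop :=
  ∀ w w' : Place K F, w.restrictAlong α hα = x → 0 < (w'.restrictAlong α hα).ord u →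
    w'.restrictAlong α hα ≠ c₀ → r w ≠ r w'

/-- (B1) PROOF. Let `E ≥ 0` with `E ≤ zeroDiv (u - ε)`, all of whose points satisfy `Sep`. `Rd E ≤ Rd (zeroDiv (u - ε)) = Rd (zeroDiv u)`
(`Rd_mono`, B0), `zeroDiv u = pt c₀ + D'`, `D' ≥ 0`, `D' c₀ = 0`.  At `y`: if `Rd E y = 0` use `Rd_nonneg`; otherwise
`y = r w` with `w` over a point of `E` (contrapositive of `Rd_apply_eq_zero`) and `Rd D' y = 0` by `Rd_apply_eq_zero` + `Sep`. -/
theorem Rd_le (hr : IsRedMap R r) {u : F₀} (hu : R.red (α u) ≠ 0) {ε : K} (hε : ε ∈ R.A)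
    (hε0 : R.redA ε = 0) {c₀ : Place K F₀} (hc₀ : c₀.ord u = 1) {E : Divisor K F₀} (hE0 : 0 ≤ E)
    (hE : E ≤ poleDiv (K := K) (u - algebraMap K F₀ ε)⁻¹)
    (hsep : ∀ x, E x ≠ 0 → Sep α hα r u x c₀) :
    Rd α hα r E ≤ Rd α hα r (Finsupp.single c₀ 1) := by
  classical
  set Z : Divisor K F₀ := poleDiv (K := K) u⁻¹ with hZ
  set D' : Divisor K F₀ := Z - Finsupp.single c₀ 1 with hD'
  have hZc : Z c₀ = 1 := by
    rw [hZ, poleDiv_apply, Place.ord_inv, neg_neg, hc₀]
    rfl
  have hD'c : D' c₀ = 0 := by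
    rw [hD', Finsupp.sub_apply, hZc, Finsupp.single_eq_same, sub_self]
  have hD'ne : ∀ x, x ≠ c₀ → D' x = Z x := by
    intro x hx
    rw [hD', Finsupp.sub_apply, Finsupp.single_eq_of_ne hx, sub_zero]
  have hD'0 : 0 ≤ D' := by
    intro x
    by_cases hx : x = c₀
    · rw [hx, hD'c]; rfl
    · rw [hD'ne x hx]
      exact EvalRed_poleDiv_nonneg _ x
  have h1 : Rd α hα r E ≤ Rd α hα r (Finsupp.single c₀ 1) + Rd α hα r D' := by
    have h2 := Rd_mono (r := r) α hα hE
    rw [Rd_zeroDiv_sub α hα hr hu hε hε0, ← hZ] at h2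
    have h3 : Z = Finsupp.single c₀ 1 + D' := by rw [hD']; abel
    rw [h3, map_add] at h2
    exact h2
  intro y
  by_cases hy : Rd α hα r E y = 0
  · rw [hy]
    exact Rd_nonneg α hα (by
      intro x
      by_cases hx : x = c₀
      · rw [hx, Finsupp.single_eq_same]; exact zero_le_one
      · rw [Finsupp.single_eq_of_ne hx]; rfl) y
  · have h4 : ∃ w : Place K F, E (w.restrictAlong α hα) ≠ 0 ∧ r w = y := by
      by_contra hno
      push Not at hno
      exact hy (Rd_apply_eq_zero α hα hno)
    obtain ⟨w, hw, rfl⟩ := h4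
    have h5 : Rd α hα r D' (r w) = 0 := by
      apply Rd_apply_eq_zero
      intro w' hw'
      have hne : w'.restrictAlong α hα ≠ c₀ := by
        intro h
        rw [h] at hw'
        exact hw' hD'c
      have hpos : 0 < (w'.restrictAlong α hα).ord u := by
        rw [hD'ne _ hne, hZ, poleDiv_apply, Place.ord_inv, neg_neg] at hw'
        by_contra hle
        exact hw' (max_eq_right (not_lt.1 hle))
      exact (hsep _ hw w w' rfl hpos hne).symm
    have h6 := h1 (r w)
    rw [Finsupp.add_apply, h5, add_zero] at h6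
    exact h6

theorem Abs_degree_nonneg {D : Divisor k Fb} (h : 0 ≤ D) : 0 ≤ Divisor.degree D := by
  rw [GAL.RED.degree_eq_sum]
  exact Finset.sum_nonneg fun v _ => h v

theorem Abs_finsupp_eq_zero {Y : Type*} (a : Y →₀ ℤ) (h0 : ∀ y, 0 ≤ a y)
    (hs : (a.sum fun _ n => n) = 0) : a = 0 := by
  classical
  have h := (Finset.sum_eq_zero_iff_of_nonneg (s := a.support) (f := fun y => a y)
    (fun y _ => h0 y)).mp hs
  ext y
  by_cases hy : y ∈ a.support
  · exact h y hy
  · simpa using hy

theorem Abs_eq_of_le_of_degree_eq {D D' : Divisor k Fb} (h : D ≤ D')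
    (hd : Divisor.degree D = Divisor.degree D') : D = D' := by
  have h1 : D' - D = 0 := by
    apply Abs_finsupp_eq_zero
    · intro y
      rw [Finsupp.sub_apply]
      exact sub_nonneg.2 (h y)
    · rw [← GAL.RED.degree_eq_sum, map_sub, hd, sub_self]
  exact (sub_eq_zero.1 h1).symm

theorem Abs_single_le_zeroDiv {v : F₀} {x : Place K F₀} (hx : 0 < x.ord v) :
    (1 : ℤ) ≤ poleDiv (K := K) v⁻¹ x := by
  rw [poleDiv_apply, Place.ord_inv, neg_neg]
  exact le_max_of_le_left hx

theorem Abs_finrankAlong_pos (hfin : FiniteAlong K α) : 0 < finrankAlong K α := by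
  let _ := algebraAlong α
  have : Module.Finite F₀ F := hfin
  exact Module.finrank_pos

/-- (B2) -/
theorem Rd_eq (hfin : FiniteAlong K α) (hr : IsRedMap R r) {u : F₀} (hu : R.red (α u) ≠ 0) {ε : K}
    (hε : ε ∈ R.A) (hε0 : R.redA ε = 0) {c₀ x : Place K F₀} (hc₀ : c₀.ord u = 1)
    (hx : 0 < x.ord (u - algebraMap K F₀ ε)) (hsep : Sep α hα r u x c₀) :
    Rd α hα r (Finsupp.single x 1) = Rd α hα r (Finsupp.single c₀ 1) := by
  classical
  apply Abs_eq_of_le_of_degree_eq
  · apply Rd_le α hα hr hu hε hε0 hc₀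
    · intro z
      by_cases hz : z = x
      · rw [hz, Finsupp.single_eq_same]; exact zero_le_one
      · rw [Finsupp.single_eq_of_ne hz]; rfl
    · intro z
      by_cases hz : z = x
      · rw [hz, Finsupp.single_eq_same]; exact Abs_single_le_zeroDiv hx
      · rw [Finsupp.single_eq_of_ne hz]; exact EvalRed_poleDiv_nonneg _ z
    · intro z hz
      by_cases hzx : z = x
      · rw [hzx]; exact hsep
      · exact absurd (Finsupp.single_eq_of_ne hzx) hz
  · rw [degree_Rd α hα hfin, degree_Rd α hα hfin, Divisor.degree_single, Divisor.degree_single,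
      GAL.RED.deg_eq_one, GAL.RED.deg_eq_one]

/-- (B3) -/
theorem unique_of_sep (hfin : FiniteAlong K α) (hr : IsRedMap R r) {u : F₀} (hu : R.red (α u) ≠ 0) {ε : K}
    (hε : ε ∈ R.A) (hε0 : R.redA ε = 0) {c₀ x y : Place K F₀} (hc₀ : c₀.ord u = 1)
    (hx : 0 < x.ord (u - algebraMap K F₀ ε)) (hsx : Sep α hα r u x c₀)
    (hy : 0 < y.ord (u - algebraMap K F₀ ε)) (hsy : Sep α hα r u y c₀) : x = y := by
  classical
  by_contra hxy
  have hyx : y ≠ x := fun h => hxy h.symm
  have h1 : Rd α hα r (Finsupp.single x 1 + Finsupp.single y 1)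
      ≤ Rd α hα r (Finsupp.single c₀ 1) := by
    apply Rd_le α hα hr hu hε hε0 hc₀
    · intro z
      rw [Finsupp.add_apply]
      apply add_nonneg
      · by_cases hz : z = x
        · rw [hz, Finsupp.single_eq_same]; exact zero_le_one
        · rw [Finsupp.single_eq_of_ne hz]
      · by_cases hz : z = y
        · rw [hz, Finsupp.single_eq_same]; exact zero_le_one
        · rw [Finsupp.single_eq_of_ne hz]
    · intro z
      rw [Finsupp.add_apply]
      by_cases hz : z = x
      · rw [hz, Finsupp.single_eq_same, Finsupp.single_eq_of_ne hxy, add_zero]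
        exact Abs_single_le_zeroDiv hx
      · rw [Finsupp.single_eq_of_ne hz, zero_add]
        by_cases hz' : z = y
        · rw [hz', Finsupp.single_eq_same]; exact Abs_single_le_zeroDiv hy
        · rw [Finsupp.single_eq_of_ne hz']; exact EvalRed_poleDiv_nonneg _ z
    · intro z hz
      by_cases hzx : z = x
      · rw [hzx]; exact hsx
      · by_cases hzy : z = y
        · rw [hzy]; exact hsy
        · rw [Finsupp.add_apply, Finsupp.single_eq_of_ne hzx, Finsupp.single_eq_of_ne hzy,
            add_zero] at hz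
          exact absurd rfl hz
  have h2 : 0 ≤ Divisor.degree (Rd α hα r (Finsupp.single c₀ 1)
      - Rd α hα r (Finsupp.single x 1 + Finsupp.single y 1)) :=
    Abs_degree_nonneg (sub_nonneg.2 h1)
  rw [map_sub, degree_Rd α hα hfin, degree_Rd α hα hfin, map_add, Divisor.degree_single,
    Divisor.degree_single, Divisor.degree_single, GAL.RED.deg_eq_one, GAL.RED.deg_eq_one,
    GAL.RED.deg_eq_one] at h2
  have h3 : (0 : ℤ) < finrankAlong K α := by exact_mod_cast Abs_finrankAlong_pos α hfin
  push_cast at h2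
  nlinarith

end Fermat.Agent.S15.Red
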