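import Fermat.Agent.S15.Red.Abs

/-!
# S15 / RED (abstract part 2): the two cusps `∞`, `0` of `X₀(p)` and the coordinates `j`, `j_p`

`F₀` = level `p`, `F` = neat level `p c`, `α : F₀ → F`.  `CD` collects the facts on `j, j_p, ∞, 0` which are needed.
Numerical closeness to a cusp is expressed by `R.redA (b / a ^ p) ≠ 0` (`b / a ^ p` is a unit of `A`), `a = j(x)`, `b = j_p(x)`.
-/

set_option autoImplicit false
set_option linter.unusedSectionVars false

noncomputable section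

namespace Fermat.Agent.S15.Red

open AlgebraicCurve Fermat.Agent.Lib.RR Fermat.Agent.GAL.RED Fermat.Agent.S19 Fermat.Agent.S19.Weil
  Fermat.Agent.DR.Conc Fermat.Agent.S37

variable {K F k Fb : Type*} [Field K] [Field F] [Algebra K F] [Field k] [Field Fb] [Algebra k Fb]
  [IsFF K F] [IsAlgClosed K] [IsFF k Fb] [IsAlgClosed k]
  {R : RedData K F k Fb} {r : Place K F → Place k Fb}
  [CharZero K] {F₀ : Type*} [Field F₀] [Algebra K F₀] [IsFF K F₀]
  {α : F₀ →ₐ[K] F} {hα : α.toRingHom.IsIntegral}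

/-- The facts on the cusps. -/
structure CD (R : RedData K F k Fb) (α : F₀ →ₐ[K] F) (j jp : F₀) (oo zz : Place K F₀) (p : ℕ) :
    Prop where
  hp : 2 ≤ p
  oo_j : oo.ord j = -1
  zz_j : zz.ord j = -(p : ℤ)
  oo_jp : oo.ord jp = -(p : ℤ)
  zz_jp : zz.ord jp = -1
  pole_j : ∀ Q : Place K F₀, Q.ord j < 0 → Q = oo ∨ Q = zz
  pole_jp : ∀ Q : Place K F₀, Q.ord jp < 0 → Q = oo ∨ Q = zz
  ev_oo : ev oo (jp / j ^ p) = 1
  ev_zz : ev zz (j / jp ^ p) = 1
  int : ∀ Q : Place K F₀, 0 < Q.ord jp → j ∈ Q.toValuationSubring ∧ ev Q j ∈ R.A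
  nc : NoColl R (α j)
  red_jp : R.red (α jp) ≠ 0

/-- the poles of `f : F₀` have integral `j`-value. -/
def PolesInt₀ (R : RedData K F k Fb) (j f : F₀) : Prop :=
  ∀ Q : Place K F₀, Q.ord f < 0 → j ∈ Q.toValuationSubring ∧ ev Q j ∈ R.A

/-- `F` is integral over `α F₀` as soon as some `α f` has a pole (`card_le_degree_poleDiv`). -/
theorem polesInt_alpha_isIntegral {f : F₀} {Q : Place K F} (hQ : Q.ord (α f) < 0) :
    α.toRingHom.IsIntegral := by
  classical
  have hf : Transcendental K f := by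
    intro halg
    have hint : IsIntegral K f := halg.isIntegral
    obtain ⟨a, ha⟩ := minpoly.mem_range_of_degree_eq_one K f
      (IsAlgClosed.degree_eq_one_of_irreducible K (minpoly.irreducible hint))
    rw [← ha, α.commutes, ord_algebraMap] at hQ
    exact lt_irrefl _ hQ
  intro u
  have hnot : ¬ PolyIndep K (α f)
      (fun i : Fin ((Divisor.degree (poleDiv (K := K) (α f))).toNat + 1) => u ^ (i : ℕ)) := by
    intro hz
    have := card_le_degree_poleDiv (α f) _ hz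
    push_cast at this
    omega
  generalize (Divisor.degree (poleDiv (K := K) (α f))).toNat + 1 = n at hnot
  unfold PolyIndep at hnot
  push Not at hnot
  obtain ⟨p, hp, hp0⟩ := hnot
  obtain ⟨i₀, hi₀⟩ : ∃ i, p i ≠ 0 := by
    by_contra hall
    push Not at hall
    exact hp0 (funext hall)
  have hP0 : (∑ i : Fin n, Polynomial.C (Polynomial.aeval f (p i)) * Polynomial.X ^ (i : ℕ) :
      Polynomial F₀) ≠ 0 := by
    intro h0
    have h1 := congrArg (fun q : Polynomial F₀ => q.coeff (i₀ : ℕ)) h0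
    simp only [Polynomial.finsetSum_coeff, Polynomial.coeff_C_mul, Polynomial.coeff_X_pow,
      Polynomial.coeff_zero] at h1
    rw [Finset.sum_eq_single i₀] at h1
    · rw [if_pos rfl, mul_one] at h1
      exact hi₀ ((transcendental_iff.1 hf) (p i₀) h1)
    · intro b _ hb
      rw [if_neg (fun hh => hb (Fin.ext hh.symm)), mul_zero]
    · intro hh
      exact absurd (Finset.mem_univ _) hh
  have heval : Polynomial.eval₂ α.toRingHom u
      (∑ i : Fin n, Polynomial.C (Polynomial.aeval f (p i)) * Polynomial.X ^ (i : ℕ)) = 0 := by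
    rw [Polynomial.eval₂_finsetSum, ← hp]
    refine Finset.sum_congr rfl fun i _ => ?_
    rw [Polynomial.eval₂_mul, Polynomial.eval₂_C, Polynomial.eval₂_pow, Polynomial.eval₂_X,
      Polynomial.aeval_algHom_apply]
    rfl
  exact ⟨_, Polynomial.monic_mul_leadingCoeff_inv hP0, by
    rw [Polynomial.eval₂_mul, heval, zero_mul]⟩

/-- `Place.ord_restrictAlong` (the ramification index is a natural number, so `w.ord (α f) < 0` forces
`(restrict w).ord f < 0`), `AlongB_mem_restrictAlong`, `ev_restrictAlong`. -/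
theorem polesInt_alpha {j f : F₀} (h : PolesInt₀ R j f) : PolesInt R (α j) (α f) := by
  intro Q hQ
  have hα' : α.toRingHom.IsIntegral := polesInt_alpha_isIntegral hQ
  have h1 : (Q.restrictAlong α hα').ord f < 0 := by
    by_contra hge
    rw [not_lt] at hge
    rw [Place.ord_restrictAlong α hα' Q f] at hQ
    exact absurd hQ (not_lt.2 (mul_nonneg (Int.natCast_nonneg _) hge))
  obtain ⟨h2, h3⟩ := h _ h1
  exact ⟨(AlongB_mem_restrictAlong α hα' Q j).1 h2, by rw [ev_restrictAlong α hα']; exact h3⟩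

variable {j jp : F₀} {oo zz : Place K F₀} {p : ℕ}

/-- a place of `F` over a pole of `j` is a pole of `α j` (`AlongB_mem_restrictAlong`, `mem_iff_ord`). -/
theorem ord_alpha_neg {w : Place K F} {f : F₀} (h : (w.restrictAlong α hα).ord f < 0) :
    w.ord (α f) < 0 := by
  have hf0 : f ≠ 0 := by
    rintro rfl
    rw [Place.ord_zero] at h
    exact lt_irrefl _ h
  have h1 : f ∉ (w.restrictAlong α hα).toValuationSubring := by
    rw [mem_iff_ord]
    rintro (h2 | h2)
    · exact hf0 h2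
    · omega
  rw [AlongB_mem_restrictAlong α hα w f, mem_iff_ord] at h1
  by_contra hge
  exact h1 (Or.inr (not_lt.1 hge))

/-- `a ∉ A ⟹ a⁻¹ ∈ A`, `redA a⁻¹ = 0` (if `resA ⟨a⁻¹, _⟩ ≠ 0` it is a unit of `k`; lift the inverse by `R.resA_surjective`:
`a⁻¹ c - 1` is in the kernel of `resA`, a proper ideal of the local ring `A`, so `a⁻¹ c` is a unit of `A` and `a = c (a⁻¹ c)⁻¹ ∈ A`;
or look for `redA_ne_zero_iff` / `red_ne_zero_iff`-type lemmas in `GAL/RED/Basic.lean`). -/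
theorem redA_inv_of_not_mem {a : K} (ha : a ∉ R.A) : a⁻¹ ∈ R.A ∧ R.redA a⁻¹ = 0 := by
  refine ⟨(R.A.mem_or_inv_mem a).resolve_left ha, ?_⟩
  rw [R.redA_inv, R.redA_of_not_mem ha, inv_zero]

namespace CD

variable (C : CD R α j jp oo zz p)
include C

theorem j_ne_zero : j ≠ 0 := by
  rintro rfl
  have := C.oo_j
  simp at this

theorem jp_ne_zero : jp ≠ 0 := by
  rintro rfl
  have := C.zz_jp
  simp at this

/-- monomials in `α j`, `α jp` are Gauss units (`R.red_ne_zero_iff`, `map_div₀`, `map_pow`). -/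
theorem f0_mem : α (jp / j ^ p) ∈ R.O := by
  apply R.mem_of_red_ne_zero
  have h1 : R.red (α j ^ p) ≠ 0 := by
    rw [R.red_pow]
    exact pow_ne_zero _ C.nc.red_ne
  rw [map_div₀, map_pow, R.red_div (R.mem_of_red_ne_zero C.red_jp) h1]
  exact div_ne_zero C.red_jp h1

theorem g0_mem : α (j / jp ^ p) ∈ R.O := by
  apply R.mem_of_red_ne_zero
  have h1 : R.red (α jp ^ p) ≠ 0 := by
    rw [R.red_pow]
    exact pow_ne_zero _ C.red_jp
  rw [map_div₀, map_pow, R.red_div (R.mem_of_red_ne_zero C.nc.red_ne) h1]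
  exact div_ne_zero C.nc.red_ne h1

theorem red_inv_j : R.red (α j⁻¹) ≠ 0 := by
  rw [map_inv₀, R.red_inv]
  exact inv_ne_zero C.nc.red_ne

theorem red_inv_jp : R.red (α jp⁻¹) ≠ 0 := by
  rw [map_inv₀, R.red_inv]
  exact inv_ne_zero C.red_jp

/-- poles of `j_p / j^p` are zeros of `j`. (`ord_div`, `ord_pow`; at `oo` the order is `0`, at `zz` it is `p^2 - 1`;
elsewhere `j`, `jp` are regular.) -/
theorem f0_polesInt : PolesInt₀ R j (jp / j ^ p) := by
  intro Q hQ
  have hp := C.hp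
  rw [GAL.RED.ord_div Q C.jp_ne_zero (pow_ne_zero p C.j_ne_zero), GAL.RED.ord_pow] at hQ
  have hj : 0 < Q.ord j := by
    by_contra hle
    rcases lt_or_eq_of_le (not_lt.1 hle) with h | h
    · rcases C.pole_j Q h with rfl | rfl
      · rw [C.oo_j, C.oo_jp] at hQ
        omega
      · rw [C.zz_j, C.zz_jp] at hQ
        have : (2 : ℤ) ≤ p := by exact_mod_cast hp
        nlinarith
    · rw [h, mul_zero, sub_zero] at hQ
      rcases C.pole_jp Q hQ with rfl | rfl
      · rw [C.oo_j] at h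
        omega
      · rw [C.zz_j] at h
        omega
  refine ⟨(mem_iff_ord Q j).2 (Or.inr hj.le), ?_⟩
  rw [ev_eq_zero_of_ord_pos Q hj]
  exact R.A.zero_mem

/-- poles of `j / j_p^p` are zeros of `j_p`: `C.int`. -/
theorem g0_polesInt : PolesInt₀ R j (j / jp ^ p) := by
  intro Q hQ
  have hp := C.hp
  rw [GAL.RED.ord_div Q C.j_ne_zero (pow_ne_zero p C.jp_ne_zero), GAL.RED.ord_pow] at hQ
  apply C.int Q
  by_contra hle
  rcases lt_or_eq_of_le (not_lt.1 hle) with h | h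
  · rcases C.pole_jp Q h with rfl | rfl
    · rw [C.oo_j, C.oo_jp] at hQ
      have : (2 : ℤ) ≤ p := by exact_mod_cast hp
      nlinarith
    · rw [C.zz_j, C.zz_jp] at hQ
      omega
  · rw [h, mul_zero, sub_zero] at hQ
    rcases C.pole_j Q hQ with rfl | rfl
    · rw [C.oo_jp] at h
      omega
    · rw [C.zz_jp] at h
      omega

theorem f0_ord_zz : 0 < zz.ord (jp / j ^ p) := by
  have hp := C.hp
  rw [GAL.RED.ord_div zz C.jp_ne_zero (pow_ne_zero p C.j_ne_zero), GAL.RED.ord_pow, C.zz_j, C.zz_jp]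
  have : (2 : ℤ) ≤ p := by exact_mod_cast hp
  nlinarith

theorem g0_ord_oo : 0 < oo.ord (j / jp ^ p) := by
  have hp := C.hp
  rw [GAL.RED.ord_div oo C.j_ne_zero (pow_ne_zero p C.jp_ne_zero), GAL.RED.ord_pow, C.oo_j, C.oo_jp]
  have : (2 : ℤ) ≤ p := by exact_mod_cast hp
  nlinarith

/-- at a place where `j` is regular, `j_p` is regular too. -/
theorem jp_mem {x : Place K F₀} (hx : j ∈ x.toValuationSubring) : jp ∈ x.toValuationSubring := by
  have hp := C.hp
  have hj : 0 ≤ x.ord j := ((mem_iff_ord x j).1 hx).resolve_left C.j_ne_zero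
  refine (mem_iff_ord x jp).2 (Or.inr ?_)
  by_contra hlt
  rcases C.pole_jp x (not_le.1 hlt) with rfl | rfl
  · rw [C.oo_j] at hj
    omega
  · rw [C.zz_j] at hj
    omega

/-- `ev_div`-type computation: `ev_mul`, `ev_inv`, `ev_pow`; needs `ev x j ≠ 0` for the regularity of `1 / j ^ p`
(if `ev x j = 0`, both sides: careful! we assume `ev x j ∉ R.A`, in particular `≠ 0`). -/
theorem ev_f0 {x : Place K F₀} (hx : j ∈ x.toValuationSubring) (ha : ev x j ∉ R.A) :
    ev x (jp / j ^ p) = ev x jp / ev x j ^ p := by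
  have h0 : ev x j ≠ 0 := fun h => ha (h ▸ R.A.zero_mem)
  have h1 : ev x (j ^ p)⁻¹ ≠ 0 := by
    rw [ev_inv, ev_pow]
    exact inv_ne_zero (pow_ne_zero _ h0)
  have h2 : (j ^ p)⁻¹ ∈ x.toValuationSubring :=
    (mem_iff_ord x _).2 (Or.inr ((ev_ne_zero_iff x).1 h1).2.ge)
  rw [div_eq_mul_inv, ev_mul x (C.jp_mem hx) h2, ev_inv, ev_pow, div_eq_mul_inv]

/-- `ev x jp ≠ 0`: otherwise `0 < x.ord jp` (or `jp = 0`) and `C.int` contradicts `ha`. -/
theorem ev_jp_ne_zero {x : Place K F₀} (hx : j ∈ x.toValuationSubring) (ha : ev x j ∉ R.A) :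
    ev x jp ≠ 0 := by
  intro h
  rcases (Ev_ev_eq_zero_iff x (C.jp_mem hx)).1 h with h0 | h0
  · exact C.jp_ne_zero h0
  · exact ha (C.int x h0).2

theorem ev_g0 {x : Place K F₀} (hx : j ∈ x.toValuationSubring) (ha : ev x j ∉ R.A) :
    ev x (j / jp ^ p) = ev x j / ev x jp ^ p := by
  have h0 : ev x jp ≠ 0 := C.ev_jp_ne_zero hx ha
  have h1 : ev x (jp ^ p)⁻¹ ≠ 0 := by
    rw [ev_inv, ev_pow]
    exact inv_ne_zero (pow_ne_zero _ h0)
  have h2 : (jp ^ p)⁻¹ ∈ x.toValuationSubring :=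
    (mem_iff_ord x _).2 (Or.inr ((ev_ne_zero_iff x).1 h1).2.ge)
  rw [div_eq_mul_inv, ev_mul x hx h2, ev_inv, ev_pow, div_eq_mul_inv]

/-- (K0) a place `w` of `F` over a point `x` with non integral `j`-value reduces like a place `Z` over `oo` or over `zz`.
PROOF. `exists_pole_of_ev_not_mem hr C.nc.red_ne` for `α j` (`ev_restrictAlong`); `Z.ord (α j) < 0` gives
`(restrict Z).ord j < 0` (`Place.ord_restrictAlong`), `C.pole_j`. -/
theorem exists_cusp (hr : IsRedMap R r) {w : Place K F}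
    (ha : ev (w.restrictAlong α hα) j ∉ R.A) :
    ∃ Z : Place K F, Z.ord (α j) < 0 ∧ r w = r Z ∧
      (Z.restrictAlong α hα = oo ∨ Z.restrictAlong α hα = zz) := by
  have ha' : ev w (α j) ∉ R.A := by
    rw [ev_restrictAlong α hα]
    exact ha
  obtain ⟨Z, hZ, hrZ⟩ := exists_pole_of_ev_not_mem hr C.nc.red_ne ha'
  refine ⟨Z, hZ, hrZ.symm, C.pole_j _ ?_⟩
  rw [Place.ord_restrictAlong α hα] at hZ
  by_contra h
  have h' : 0 ≤ (Place.ramificationIndexAlong α Z : ℤ) * (Z.restrictAlong α hα).ord j :=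
    mul_nonneg (Nat.cast_nonneg _) (not_lt.1 h)
  omega

/-- (K1) transport of values: `ev_congr_of_polesInt`, `polesInt_alpha`, `ev_restrictAlong`. -/
theorem ev_congr (hr : IsRedMap R r) {f : F₀} (hf : α f ∈ R.O) (hpol : PolesInt₀ R j f)
    {w Z : Place K F} (hZ : Z.ord (α j) < 0) (hwZ : r w = r Z) :
    ev (w.restrictAlong α hα) f ∈ R.A ∧
      R.redA (ev (w.restrictAlong α hα) f) = R.redA (ev (Z.restrictAlong α hα) f) := by
  have hpol' : PolesInt R (α j) (α f) := by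
    intro Q hQ
    rw [Place.ord_restrictAlong α hα] at hQ
    have hQ' : (Q.restrictAlong α hα).ord f < 0 := by
      by_contra h
      have h' : 0 ≤ (Place.ramificationIndexAlong α Q : ℤ) * (Q.restrictAlong α hα).ord f :=
        mul_nonneg (Nat.cast_nonneg _) (not_lt.1 h)
      omega
    obtain ⟨h1, h2⟩ := hpol _ hQ'
    refine ⟨(AlongB_mem_restrictAlong α hα Q j).1 h1, ?_⟩
    rw [ev_restrictAlong α hα]
    exact h2
  obtain ⟨h1, -, h3⟩ := ev_congr_of_polesInt hr C.nc hf hpol' hZ hwZ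
  rw [ev_restrictAlong α hα] at h1
  rw [ev_restrictAlong α hα, ev_restrictAlong α hα] at h3
  exact ⟨h1, h3⟩

/-- **T1 (meter criterion).**
PROOF. `w` over `x` (`exists_above`), `Z` by (K0). (K1) for `f`: `redA (f x) = redA (f oo) ≠ 0` or `= redA (f zz) = redA 0 = 0`
(`ev_eq_zero_of_ord_pos`). So in the first case of the conclusion `Z` is over `oo`, and (K1) for `jp / j ^ p` + `C.ev_oo` + `ev_f0`;
in the second case `Z` is over `zz`, (K1) for `j / jp ^ p` + `C.ev_zz` + `ev_g0`. (`R.redA 1 = 1`.) -/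
theorem near_of_meter (hfin : FiniteAlong K α) (hr : IsRedMap R r) {f : F₀} (hf : α f ∈ R.O)
    (hpol : PolesInt₀ R j f) (hzz : 0 < zz.ord f) (hoo : R.redA (ev oo f) ≠ 0)
    {x : Place K F₀} (hx : j ∈ x.toValuationSubring) (ha : ev x j ∉ R.A) :
    ev x f ∈ R.A ∧ (R.redA (ev x f) ≠ 0 → R.redA (ev x jp / ev x j ^ p) = 1) ∧
      (R.redA (ev x f) = 0 → R.redA (ev x j / ev x jp ^ p) = 1) := by
  have hα : α.toRingHom.IsIntegral := by
    let _ := algebraAlong α
    have : Module.Finite F₀ F := hfin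
    exact (Algebra.IsIntegral.of_finite F₀ F).isIntegral
  obtain ⟨w, rfl⟩ := exists_above α hα hfin x
  obtain ⟨Z, hZ, hwZ, hcase⟩ := C.exists_cusp (hα := hα) hr ha
  obtain ⟨h1, h2⟩ := C.ev_congr (hα := hα) hr hf hpol hZ hwZ
  refine ⟨h1, ?_, ?_⟩
  · intro hne
    rcases hcase with hc | hc
    · obtain ⟨-, h4⟩ := C.ev_congr (hα := hα) hr C.f0_mem C.f0_polesInt hZ hwZ
      rw [hc, C.ev_oo, R.redA_one, C.ev_f0 hx ha] at h4
      exact h4
    · exfalso
      apply hne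
      rw [h2, hc, ev_eq_zero_of_ord_pos _ hzz, R.redA_zero]
  · intro h0
    rcases hcase with hc | hc
    · exfalso
      rw [h2, hc] at h0
      exact hoo h0
    · obtain ⟨-, h4⟩ := C.ev_congr (hα := hα) hr C.g0_mem C.g0_polesInt hZ hwZ
      rw [hc, C.ev_zz, R.redA_one, C.ev_g0 hx ha] at h4
      exact h4

/-- separation for `u = 1 / j`, `c₀ = oo`.
PROOF. `w'` is over a pole of `j` different from `oo`, so over `zz`. If `r w = r w'`, (K1) for `jp / j ^ p` gives
`redA (b / a ^ p) = redA (ev zz (jp / j ^ p)) = 0` (`f0_ord_zz`). -/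
theorem sep_inf (hr : IsRedMap R r) {x : Place K F₀} (hx : j ∈ x.toValuationSubring)
    (ha : ev x j ∉ R.A) (hnear : R.redA (ev x jp / ev x j ^ p) ≠ 0) :
    Sep α hα r j⁻¹ x oo := by
  intro w w' hw hw' hne heq
  rw [Place.ord_inv] at hw'
  have hneg : (w'.restrictAlong α hα).ord j < 0 := by omega
  have hzz : w'.restrictAlong α hα = zz := by
    rcases C.pole_j _ hneg with h | h
    · exact absurd h hne
    · exact h
  have hZ : w'.ord (α j) < 0 := ord_alpha_neg (hα := hα) hneg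
  have h2 := (C.ev_congr (hα := hα) hr C.f0_mem C.f0_polesInt hZ heq).2
  rw [hw, hzz, C.ev_f0 hx ha, ev_eq_zero_of_ord_pos zz C.f0_ord_zz, R.redA_zero] at h2
  exact hnear h2

theorem sep_zero (hr : IsRedMap R r) {x : Place K F₀} (hx : j ∈ x.toValuationSubring)
    (ha : ev x j ∉ R.A) (hnear : R.redA (ev x j / ev x jp ^ p) ≠ 0) :
    Sep α hα r jp⁻¹ x zz := by
  intro w w' hw hw' hne heq
  rw [Place.ord_inv] at hw'
  have hneg : (w'.restrictAlong α hα).ord jp < 0 := by omega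
  have hoo : w'.restrictAlong α hα = oo := by
    rcases C.pole_jp _ hneg with h | h
    · exact h
    · exact absurd h hne
  have hneg' : (w'.restrictAlong α hα).ord j < 0 := by
    rw [hoo, C.oo_j]; norm_num
  have hZ : w'.ord (α j) < 0 := ord_alpha_neg (hα := hα) hneg'
  have h2 := (C.ev_congr (hα := hα) hr C.g0_mem C.g0_polesInt hZ heq).2
  rw [hw, hoo, C.ev_g0 hx ha, ev_eq_zero_of_ord_pos oo C.g0_ord_oo, R.redA_zero] at h2
  exact hnear h2

/-- `0 < x.ord (j⁻¹ - a⁻¹)`: `ev_inv`, `ev_eq_iff`; `j⁻¹` is not constant (`C.oo_j`). -/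
theorem ord_inv_sub_pos {x : Place K F₀} (hx : j ∈ x.toValuationSubring) (ha : ev x j ∉ R.A) :
    0 < x.ord (j⁻¹ - algebraMap K F₀ (ev x j)⁻¹) := by
  have hf : ev x j ≠ 0 := fun h0 => ha (h0 ▸ R.A.zero_mem)
  obtain ⟨-, h1⟩ := (ev_ne_zero_iff x).1 hf
  have hmem : j⁻¹ ∈ x.toValuationSubring :=
    (mem_iff_ord x _).2 (Or.inr (by rw [Place.ord_inv, h1, neg_zero]))
  rcases (ev_eq_iff x hmem _).1 (ev_inv x j) with h | h
  · have h2 := ev_eq_zero_of_ord_pos oo (f := j⁻¹) (by rw [Place.ord_inv, C.oo_j]; norm_num)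
    rw [h, ev_algebraMap] at h2
    exact absurd h2 (inv_ne_zero hf)
  · exact h

theorem ord_inv_sub_pos' {x : Place K F₀} (hx : j ∈ x.toValuationSubring) (ha : ev x j ∉ R.A) :
    0 < x.ord (jp⁻¹ - algebraMap K F₀ (ev x jp)⁻¹) := by
  have hf : ev x jp ≠ 0 := C.ev_jp_ne_zero hx ha
  obtain ⟨-, h1⟩ := (ev_ne_zero_iff x).1 hf
  have hmem : jp⁻¹ ∈ x.toValuationSubring :=
    (mem_iff_ord x _).2 (Or.inr (by rw [Place.ord_inv, h1, neg_zero]))
  rcases (ev_eq_iff x hmem _).1 (ev_inv x jp) with h | h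
  · have h2 := ev_eq_zero_of_ord_pos zz (f := jp⁻¹) (by rw [Place.ord_inv, C.zz_jp]; norm_num)
    rw [h, ev_algebraMap] at h2
    exact absurd h2 (inv_ne_zero hf)
  · exact h

/-- `a / b ^ p` unit and `a ∉ A` ⟹ `b ∉ A`. -/
theorem ev_jp_not_mem {x : Place K F₀} (ha : ev x j ∉ R.A)
    (hnear : R.redA (ev x j / ev x jp ^ p) ≠ 0) : ev x jp ∉ R.A := by
  intro hb
  apply ha
  have h1 : ev x j / ev x jp ^ p ∈ R.A := R.mem_of_redA_ne_zero hnear
  have h0 : ev x jp ^ p ≠ 0 := by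
    intro h0
    rw [h0, div_zero] at hnear
    exact (R.redA_ne_zero_iff.1 hnear).1 rfl
  have h2 : ev x j = ev x j / ev x jp ^ p * ev x jp ^ p := (div_mul_cancel₀ _ h0).symm
  rw [h2]
  exact R.A.mul_mem _ _ h1 (R.A.pow_mem hb p)

/-- **T2.** `Rd_eq` with `u = j⁻¹`, `ε = a⁻¹`, `c₀ = oo`. -/
theorem Rd_of_nearInf (hfin : FiniteAlong K α) (hr : IsRedMap R r) {x : Place K F₀}
    (hx : j ∈ x.toValuationSubring) (ha : ev x j ∉ R.A)
    (hnear : R.redA (ev x jp / ev x j ^ p) ≠ 0) :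
    Rd α hα r (Finsupp.single x 1) = Rd α hα r (Finsupp.single oo 1) := by
  obtain ⟨h1, h2⟩ := redA_inv_of_not_mem ha
  refine Rd_eq α hα hfin hr C.red_inv_j h1 h2 ?_ (C.ord_inv_sub_pos hx ha) (C.sep_inf hr hx ha hnear)
  rw [Place.ord_inv, C.oo_j]
  norm_num

/-- **T3.** `Rd_eq` with `u = jp⁻¹`, `ε = b⁻¹`, `c₀ = zz`. -/
theorem Rd_of_nearZero (hfin : FiniteAlong K α) (hr : IsRedMap R r) {x : Place K F₀}
    (hx : j ∈ x.toValuationSubring) (ha : ev x j ∉ R.A)
    (hnear : R.redA (ev x j / ev x jp ^ p) ≠ 0) :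
    Rd α hα r (Finsupp.single x 1) = Rd α hα r (Finsupp.single zz 1) := by
  obtain ⟨h1, h2⟩ := redA_inv_of_not_mem (C.ev_jp_not_mem ha hnear)
  refine Rd_eq α hα hfin hr C.red_inv_jp h1 h2 ?_ (C.ord_inv_sub_pos' hx ha)
    (C.sep_zero hr hx ha hnear)
  rw [Place.ord_inv, C.zz_jp]
  norm_num

/-- **T4.** -/
theorem unique_nearInf (hα' : α.toRingHom.IsIntegral) (hfin : FiniteAlong K α) (hr : IsRedMap R r)
    {x y : Place K F₀}
    (hx : j ∈ x.toValuationSubring) (ha : ev x j ∉ R.A)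
    (hnx : R.redA (ev x jp / ev x j ^ p) ≠ 0)
    (hy : j ∈ y.toValuationSubring) (hxy : ev y j = ev x j)
    (hny : R.redA (ev y jp / ev y j ^ p) ≠ 0) : x = y := by
  obtain ⟨h1, h2⟩ := redA_inv_of_not_mem ha
  have ha' : ev y j ∉ R.A := by rw [hxy]; exact ha
  have h3 := C.ord_inv_sub_pos hy ha'
  rw [hxy] at h3
  refine unique_of_sep α hα' hfin hr C.red_inv_j h1 h2 ?_ (C.ord_inv_sub_pos hx ha)
    (C.sep_inf hr hx ha hnx) h3 (C.sep_inf hr hy ha' hny)
  rw [Place.ord_inv, C.oo_j]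
  norm_num

end CD

end Fermat.Agent.S15.Red
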